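import Fermat.Agent.BirchForms.Series

/-!
# Zeros of a form with coefficients

The circle method for `∑ c i x i ^ k = 0` in more than `k (k + 1)` variables with `|c 0| = 1` and
`|c i| x i ^ k ≤ N`: on the minor arcs the first sum has Weyl's saving and the others the moment of
the main conjecture. With coefficients of both signs and a local pattern at every prime there are
solutions in positive integers.
-/

set_option autoImplicit false

noncomputable section

namespace FA.BirchForms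

open Finset FA.WaringAsymptotic Filter Topology
open FA.ThreePrimes hiding mainTerm
open scoped Real

/-- The box and the equation. -/
def solCount (k : ℕ) {s : ℕ} (c : Fin s → ℤ) (N : ℕ) : ℕ :=
  ((Fintype.piFinset fun i => Icc 1 (rootFloor k (N / (c i).natAbs))).filter
    fun z => ∑ i, c i * (z i : ℤ) ^ k = 0).card

/-- The product of the sums. -/
def sumProduct (k : ℕ) {s : ℕ} (c : Fin s → ℤ) (N : ℕ) (x : ℝ) : ℂ :=
  ∏ i, waringSum k (rootFloor k (N / (c i).natAbs)) ((c i : ℝ) * x)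

/-- `(∏ |c i|) ^ (-1/k)`. -/
def coefScale (k : ℕ) {s : ℕ} (c : Fin s → ℤ) : ℝ :=
  ∏ i, ((c i).natAbs : ℝ) ^ (-(1 / (k : ℝ)))

/-- The coefficient of an arc. -/
def coefArc (k : ℕ) {s : ℕ} (c : Fin s → ℤ) (z : Σ _ : ℕ, ℕ) : ℂ :=
  (coefScale k c : ℂ) * factor k z.1 c z.2

/-- The main term near a centre. -/
def signedMain (k : ℕ) {s : ℕ} (c : Fin s → ℤ) (N : ℕ) (x : ℝ) : ℂ :=
  ∏ i, weightSum (1 / (k : ℝ)) N (((c i).sign : ℝ) * x)

/-- The weighted solutions of `∑ ± m i = 0`. -/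
def signedWeight (k : ℕ) {s : ℕ} (c : Fin s → ℤ) (N : ℕ) : ℝ :=
  ∑ m ∈ (Fintype.piFinset fun _ : Fin s => Ioc 0 N).filter
    (fun m => ∑ i, (c i).sign * (m i : ℤ) = 0), ∏ i, weight (1 / (k : ℝ)) (m i)

theorem coefScale_mem {k s : ℕ} {c : Fin s → ℤ} (hc : ∀ i, c i ≠ 0) :
    0 < coefScale k c ∧ coefScale k c ≤ 1 :=
  ⟨prod_pos fun i _ => Real.rpow_pos_of_pos (Nat.cast_pos.2 (Int.natAbs_pos.2 (hc i))) _,
    prod_le_one (fun i _ => by positivity) fun i _ =>
      Real.rpow_le_one_of_one_le_of_nonpos (by exact_mod_cast Int.natAbs_pos.2 (hc i))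
        (neg_nonpos.2 (by positivity))⟩

theorem rootFloor_div_le {k N a : ℕ} (hk : 1 ≤ k) (ha : 0 < a) (haN : a ≤ N) :
    rootFloor k (N / a) ≤ rootFloor k N := by
  obtain ⟨-, h1, -⟩ := rootFloor_spec hk (Nat.div_pos haN ha)
  obtain ⟨-, -, h2⟩ := rootFloor_spec hk (show 1 ≤ N by omega)
  exact Nat.lt_succ_iff.1 (lt_of_pow_lt_pow_left₀ k (Nat.zero_le _)
    ((h1.trans (Nat.div_le_self N a)).trans_lt h2))

theorem norm_signedMain {k s N : ℕ} {c : Fin s → ℤ} (hc : ∀ i, c i ≠ 0) (x : ℝ) :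
    ‖signedMain k c N x‖ = ‖weightSum (1 / (k : ℝ)) N x‖ ^ s := by
  rw [signedMain, norm_prod]
  refine (prod_congr rfl (g := fun _ => ‖weightSum (1 / (k : ℝ)) N x‖) fun i _ => ?_).trans
    (by simp)
  rcases lt_or_gt_of_ne (hc i) with h | h
  · rw [Int.sign_eq_neg_one_of_neg h, Int.cast_neg, Int.cast_one, neg_one_mul, weightSum_neg,
      Complex.norm_conj]
  · rw [Int.sign_eq_one_of_pos h, Int.cast_one, one_mul]

theorem sum_grid_eq_zero {M : ℕ} {S : ℤ} (hM : 0 < M) (h : |S| < M) :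
    ∑ x ∈ range M, eAdd ((S : ℝ) * x / M) = if S = 0 then (M : ℂ) else 0 := by
  rw [sum_eAdd_grid hM]
  refine if_congr ⟨fun hd => Int.eq_zero_of_abs_lt_dvd hd h, fun e => e ▸ dvd_zero _⟩ rfl rfl

/-- **Orthogonality.** -/
theorem sum_grid_sumProduct {k s N M : ℕ} {c : Fin s → ℤ} (hk : 1 ≤ k) (hs : 1 ≤ s)
    (hc : ∀ i, c i ≠ 0) (hcN : ∀ i, (c i).natAbs ≤ N) (hN : 1 ≤ N) (hM : M = 2 * s * N) :
    ∑ h ∈ range M, sumProduct k c N ((h : ℝ) / M) = (M : ℂ) * solCount k c N := by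
  have hM0 : 0 < M := hM ▸ Nat.mul_pos (by omega) hN
  have e : ∀ x : ℝ, sumProduct k c N x =
      ∑ z ∈ Fintype.piFinset (fun i => Icc 1 (rootFloor k (N / (c i).natAbs))),
        eAdd (((∑ i, c i * (z i : ℤ) ^ k : ℤ) : ℝ) * x) := fun x => by
    simp only [sumProduct, waringSum]
    rw [prod_univ_sum]
    refine sum_congr rfl fun z _ => ?_
    rw [prod_eAdd_eq]
    push_cast
    rw [sum_mul]
    exact congrArg _ (sum_congr rfl fun i _ => by ring)
  simp only [e, ← mul_div_assoc]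
  rw [sum_comm, solCount, card_filter, Nat.cast_sum, mul_sum]
  refine sum_congr rfl fun z hz => ?_
  have hz' := Fintype.mem_piFinset.1 hz
  rw [sum_grid_eq_zero hM0]
  · split_ifs <;> simp
  refine lt_of_le_of_lt ((abs_sum_le_sum_abs _ _).trans (sum_le_card_nsmul _ _ (N : ℤ)
    fun i _ => ?_)) ?_
  · rw [abs_mul, abs_pow, Nat.abs_cast, Int.abs_eq_natAbs]
    have h1 := (Nat.mul_le_mul_left (c i).natAbs
      ((Nat.pow_le_pow_left (mem_Icc.1 (hz' i)).2 k).trans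
      (rootFloor_spec hk (Nat.div_pos (hcN i) (Int.natAbs_pos.2 (hc i)))).2.1)).trans
        (Nat.mul_div_le N (c i).natAbs)
    exact_mod_cast h1
  · rw [card_univ, Fintype.card_fin, nsmul_eq_mul, hM]
    have : s * N < 2 * s * N := Nat.mul_lt_mul_of_pos_right (by omega) hN
    exact_mod_cast this

theorem sum_grid_signedMain {k s N M : ℕ} {c : Fin s → ℤ} (hs : 1 ≤ s) (hN : 1 ≤ N)
    (hM : M = 2 * s * N) (θ : ℝ) :
    ∑ h ∈ range M, signedMain k c N ((h : ℝ) / M + θ) = (M : ℂ) * signedWeight k c N := by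
  have hM0 : 0 < M := hM ▸ Nat.mul_pos (by omega) hN
  have e : ∀ x : ℝ, signedMain k c N x = ∑ m ∈ Fintype.piFinset (fun _ : Fin s => Ioc 0 N),
      (∏ i, (weight (1 / (k : ℝ)) (m i) : ℂ)) *
        eAdd (((∑ i, (c i).sign * (m i : ℤ) : ℤ) : ℝ) * x) := fun x => by
    simp only [signedMain, weightSum]
    rw [prod_univ_sum]
    refine sum_congr rfl fun m _ => ?_
    rw [prod_mul_distrib, prod_eAdd_eq]
    push_cast
    rw [sum_mul]
    exact congrArg _ (congrArg _ (sum_congr rfl fun i _ => by ring))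
  simp only [e, mul_add, eAdd_add, ← mul_div_assoc]
  rw [sum_comm, signedWeight, sum_filter, Complex.ofReal_sum, mul_sum]
  refine sum_congr rfl fun m hm => ?_
  rw [← mul_sum, ← sum_mul, sum_grid_eq_zero hM0]
  · split_ifs with h
    · rw [h, Int.cast_zero, zero_mul, eAdd_zero, mul_one, Complex.ofReal_prod, mul_comm]
    · simp
  refine lt_of_le_of_lt ((abs_sum_le_sum_abs _ _).trans (sum_le_card_nsmul _ _ (N : ℤ)
    fun i _ => ?_)) ?_
  · rw [abs_mul, Nat.abs_cast]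
    refine (mul_le_of_le_one_left (Nat.cast_nonneg _) ?_).trans
      (Nat.cast_le.2 (mem_Ioc.1 (Fintype.mem_piFinset.1 hm i)).2)
    rcases lt_trichotomy (c i) 0 with h | h | h <;>
      simp [h, Int.sign_eq_neg_one_of_neg, Int.sign_eq_one_of_pos]
  · rw [card_univ, Fintype.card_fin, nsmul_eq_mul, hM]
    have : s * N < 2 * s * N := Nat.mul_lt_mul_of_pos_right (by omega) hN
    exact_mod_cast this

/-- **The moment with a coefficient.** -/
theorem sum_norm_waringSum_mul_pow {k t P M : ℕ} (a : ℤ) (ha : a ≠ 0)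
    (hM : a.natAbs * (t * P ^ k) < M) :
    ∑ h ∈ range M, ‖waringSum k P ((a : ℝ) * ((h : ℝ) / M))‖ ^ (2 * t) =
      M * powerDiagonal k t P := by
  have e : ∀ x : ℝ, ((‖waringSum k P x‖ ^ (2 * t) : ℝ) : ℂ) =
      ∑ z ∈ Korobov.box (Icc 1 P) t, ∑ w ∈ Korobov.box (Icc 1 P) t,
        eAdd ((((∑ i, z i ^ k : ℕ) : ℤ) - ((∑ i, w i ^ k : ℕ) : ℤ) : ℤ) * x) := fun x => by
    have hf : waringSum k P x ^ t = ∑ z ∈ Korobov.box (Icc 1 P) t,
        eAdd ((∑ i, z i ^ k : ℕ) * x) := by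
      have h := sum_eAdd_pow (Icc 1 P) (fun _ => 1) (fun n => n ^ k) t x
      simp only [one_mul, prod_const_one] at h
      rw [Korobov.box, ← h, waringSum]
      refine congrArg (· ^ t) (sum_congr rfl fun n _ => ?_)
      push_cast
      rw [mul_comm]
    rw [mul_comm 2 t, pow_mul, Complex.ofReal_pow, ← norm_pow, ← Complex.mul_conj', hf, map_sum,
      sum_mul_sum]
    refine sum_congr rfl fun z _ => sum_congr rfl fun w _ => ?_
    rw [conj_eAdd, ← eAdd_add]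
    push_cast
    ring_nf
  apply Complex.ofReal_injective
  rw [Complex.ofReal_sum, sum_congr rfl fun h _ => e _, powerDiagonal, card_filter, sum_product,
    Complex.ofReal_mul, Complex.ofReal_natCast, Complex.ofReal_natCast, Nat.cast_sum, mul_sum,
    sum_comm]
  refine sum_congr rfl fun z hz => ?_
  rw [sum_comm, Nat.cast_sum (Korobov.box (Icc 1 P) t), mul_sum]
  refine sum_congr rfl fun w hw => ?_
  simp only [← mul_assoc, ← mul_div_assoc, ← Int.cast_mul]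
  have hb : ∀ v ∈ Korobov.box (Icc 1 P) t, ∑ i, v i ^ k ≤ t * P ^ k := fun v hv =>
    (sum_le_card_nsmul _ _ (P ^ k) fun i _ => Nat.pow_le_pow_left
      (mem_Icc.1 (Fintype.mem_piFinset.1 hv i)).2 k).trans (by simp)
  have hz' := hb z hz
  have hw' := hb w hw
  generalize ∑ i, z i ^ k = A at hz' ⊢
  generalize ∑ i, w i ^ k = B at hw' ⊢
  rw [sum_grid_eq_zero (by omega)]
  · by_cases h : A = B
    · simp [h]
    · rw [if_neg (mul_ne_zero (by omega) ha), if_neg h]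
      simp
  · rw [abs_mul, Int.abs_eq_natAbs a]
    have h1 : |((A : ℤ) - B)| ≤ ((t * P ^ k : ℕ) : ℤ) := abs_le.2 ⟨by omega, by omega⟩
    refine lt_of_le_of_lt (mul_le_mul_of_nonneg_right h1 (Int.natCast_nonneg _)) ?_
    rw [mul_comm]
    exact_mod_cast hM

theorem waringSum_add_intCast (k P : ℕ) (x : ℝ) (j : ℤ) :
    waringSum k P (x + j) = waringSum k P x := by
  refine sum_congr rfl fun n _ => ?_
  rw [add_mul, show (j : ℝ) * (n : ℝ) ^ k = ((j * (n : ℤ) ^ k : ℤ) : ℝ) by push_cast; rfl,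
    eAdd_add_intCast]

/-- A product is at most a sum of powers. -/
theorem prod_le_sum_pow {ι : Type*} (S : Finset ι) (hS : S.Nonempty) (f : ι → ℝ)
    (hf : ∀ i ∈ S, 0 ≤ f i) : ∏ i ∈ S, f i ≤ ∑ i ∈ S, f i ^ #S := by
  obtain ⟨j, hj, hmax⟩ := S.exists_max_image f hS
  exact (prod_le_prod hf hmax).trans ((le_of_eq (prod_const _)).trans
    (single_le_sum (f := fun i => f i ^ #S) (fun i hi => pow_nonneg (hf i hi) _) hj))

/-- **The minor arcs.** -/
theorem exists_minor_product {k n : ℕ} (hk : 2 ≤ k) (hn : k * (k + 1) ≤ n)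
    {c : Fin (n + 1) → ℤ} (hc : ∀ i, c i ≠ 0) (hc0 : (c 0).natAbs = 1) : ∃ C : ℝ, 0 < C ∧
    ∀ N P M : ℕ, 1 ≤ N → P = rootFloor k N → M = 2 * (n + 1) * N →
      (∀ i, (c i).natAbs ≤ N) →
      ∑ h ∈ minorSet M P N, ‖sumProduct k c N ((h : ℝ) / M)‖ ≤
        C * M * (P : ℝ) ^ (((n + 1 : ℕ) : ℝ) - k - weylSaving k / 2) := by
  obtain ⟨t, ht⟩ : ∃ t, t = VMC.tri k := ⟨_, rfl⟩
  have htk : 2 * t = k * (k + 1) := ht ▸ VMC.two_mul_tri k
  obtain ⟨e, he⟩ : ∃ e, n = e + 2 * t := ⟨n - 2 * t, by omega⟩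
  obtain ⟨C₁, hC₁, hsup⟩ := exists_minor_sup hk
  obtain ⟨C₂, hC₂, hmom⟩ := exists_powerDiagonal_tri (k := k) (by omega)
    (half_pos (weylSaving_pos k))
  rw [← ht] at hmom
  refine ⟨C₁ * (n * C₂) + 1, by positivity, fun N P M hN hP hM hcN => ?_⟩
  obtain ⟨hP1, hPN, hNP⟩ := rootFloor_spec (show 1 ≤ k by omega) hN
  rw [← hP] at hP1 hPN hNP
  have hPr : (1 : ℝ) ≤ P := by exact_mod_cast hP1
  obtain ⟨E, hE⟩ : ∃ E, E = (univ : Finset (Fin (n + 1))).erase 0 := ⟨_, rfl⟩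
  have hEc : #E = n := by simp [hE]
  have hkk : k * 2 ≤ 2 * t := htk ▸ Nat.mul_le_mul_left k (by omega)
  obtain ⟨Y, hY⟩ : ∃ Y : ℝ, Y = 2 * (t : ℝ) - k + weylSaving k / 2 := ⟨_, rfl⟩
  have hY0 : 0 ≤ Y := by
    have h1 : (k : ℝ) * 2 ≤ 2 * (t : ℝ) := by exact_mod_cast hkk
    rw [hY]
    linarith [weylSaving_pos k]
  have hmo : ∀ i, ∑ h ∈ range M, ‖waringSum k (rootFloor k (N / (c i).natAbs))
      ((c i : ℝ) * ((h : ℝ) / M))‖ ^ (2 * t) ≤ M * (C₂ * (P : ℝ) ^ Y) := fun i => by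
    have hi := Int.natAbs_pos.2 (hc i)
    obtain ⟨hQ1, hQN, -⟩ := rootFloor_spec (show 1 ≤ k by omega) (Nat.div_pos (hcN i) hi)
    have hlt : (c i).natAbs * (t * rootFloor k (N / (c i).natAbs) ^ k) < M := by
      rw [hM, mul_left_comm]
      refine lt_of_le_of_lt (Nat.mul_le_mul_left t ((Nat.mul_le_mul_left _ hQN).trans
        (Nat.mul_div_le N _))) ?_
      exact Nat.mul_lt_mul_of_pos_right (by omega) hN
    rw [sum_norm_waringSum_mul_pow (c i) (hc i) hlt]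
    refine mul_le_mul_of_nonneg_left ((hmom _ hQ1).trans (mul_le_mul_of_nonneg_left ?_ hC₂.le))
      (Nat.cast_nonneg M)
    rw [← hY]
    exact Real.rpow_le_rpow (Nat.cast_nonneg _)
      (Nat.cast_le.2 (hP ▸ rootFloor_div_le (by omega) hi (hcN i))) hY0
  refine (sum_le_sum (g := fun h : ℕ => C₁ * (P : ℝ) ^ (1 - weylSaving k) * ((P : ℝ) ^ e *
    ∑ i ∈ E, ‖waringSum k (rootFloor k (N / (c i).natAbs)) ((c i : ℝ) * ((h : ℝ) / M))‖ ^ (2 * t)))
    fun h hh => ?_).trans ?_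
  · have h0 : ‖waringSum k (rootFloor k (N / (c 0).natAbs)) ((c 0 : ℝ) * ((h : ℝ) / M))‖ =
        ‖waringSum k P ((h : ℝ) / M)‖ := by
      rw [hc0, Nat.div_one, ← hP]
      rcases Int.natAbs_eq (c 0) with e' | e' <;> rw [e', hc0]
      · simp
      · simp [waringSum_neg]
    rw [sumProduct, norm_prod, ← mul_prod_erase _ _ (mem_univ 0), ← hE, h0]
    refine mul_le_mul ?_ ?_ (prod_nonneg fun i _ => norm_nonneg _) (by positivity)
    · rw [minorSet, Finset.mem_sdiff, mem_biUnion] at hh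
      refine hsup N P _ hP1 hPN hNP fun z hz => ?_
      by_contra hle
      exact hh.2 ⟨z, hz, mem_filter.2 ⟨hh.1, not_lt.1 hle⟩⟩
    · refine (prod_le_sum_pow E (card_pos.1 (by omega))
        (fun i => ‖waringSum k (rootFloor k (N / (c i).natAbs)) ((c i : ℝ) * ((h : ℝ) / M))‖)
        fun i _ => norm_nonneg _).trans ?_
      rw [hEc, mul_sum]
      refine sum_le_sum fun i _ => ?_
      refine le_trans (le_of_eq (by rw [← pow_add, ← he] :
        _ = ‖waringSum k (rootFloor k (N / (c i).natAbs)) ((c i : ℝ) * ((h : ℝ) / M))‖ ^ e *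
          ‖waringSum k (rootFloor k (N / (c i).natAbs)) ((c i : ℝ) * ((h : ℝ) / M))‖ ^ (2 * t)))
        ?_
      refine mul_le_mul_of_nonneg_right (pow_le_pow_left₀ (norm_nonneg _)
        ((norm_waringSum_le _ _ _).trans (Nat.cast_le.2 ?_)) e) (by positivity)
      exact hP ▸ rootFloor_div_le (by omega) (Int.natAbs_pos.2 (hc i)) (hcN i)
  rw [← mul_sum, ← mul_sum, sum_comm]
  refine (mul_le_mul_of_nonneg_left (mul_le_mul_of_nonneg_left (sum_le_sum fun i _ =>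
    (sum_le_sum_of_subset_of_nonneg (t := range M) (show minorSet M P N ⊆ range M from sdiff_subset)
      fun h _ _ => by positivity).trans (hmo i)) (by positivity)) (by positivity)).trans ?_
  rw [sum_const, hEc, nsmul_eq_mul]
  calc C₁ * (P : ℝ) ^ (1 - weylSaving k) * ((P : ℝ) ^ e * ((n : ℝ) * (M * (C₂ * (P : ℝ) ^ Y))))
      = C₁ * (n * C₂) * M * (P : ℝ) ^ (1 - weylSaving k + (e : ℝ) + Y) := by
        rw [Real.rpow_add (by linarith : (0 : ℝ) < P), Real.rpow_add (by linarith : (0 : ℝ) < P),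
          Real.rpow_natCast]
        ring
    _ ≤ (C₁ * (n * C₂) + 1) * M * (P : ℝ) ^ (1 - weylSaving k + (e : ℝ) + Y) := by gcongr; linarith
    _ = _ := by
        rw [hY, he]
        push_cast
        ring_nf

/-- One arc. -/
theorem exists_coef_arc_error {k : ℕ} (hk : 2 ≤ k) {n : ℕ} {c : Fin (n + 1) → ℤ}
    (hc : ∀ i, c i ≠ 0) : ∃ C : ℝ, 0 < C ∧ ∀ N P M : ℕ,
    P = rootFloor k N → 1 ≤ N → (∀ i, (c i).natAbs ≤ N) → M = 2 * (n + 1) * N →
      ∀ z ∈ arcCentres ⌊(P : ℝ) ^ (1 / 10 : ℝ)⌋₊,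
        ∑ h ∈ arc M ((P : ℝ) ^ (1 / 10 : ℝ) / N) z,
          ‖sumProduct k c N ((h : ℝ) / M) -
            coefArc k c z * signedMain k c N ((h : ℝ) / M + -centre z)‖ ≤
          C * (P : ℝ) ^ ((n : ℝ) + 4 / 10) := by
  obtain ⟨L, hL1, hlog⟩ := exists_one_add_log_le k (2 * (n + 1))
  refine ⟨(5 + 4 * ((2 * (n + 1) : ℕ) : ℝ) * L) * (((n + 1 : ℕ) : ℝ) * 2 ^ n * 99), by positivity,
    fun N P M hP hN hcN hM z hz => ?_⟩
  obtain ⟨hP1, hPN, hNP⟩ := rootFloor_spec (show 1 ≤ k by omega) hN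
  rw [← hP] at hP1 hPN hNP
  have hPr : (1 : ℝ) ≤ P := by exact_mod_cast hP1
  have hN0 : (0 : ℝ) < N := Nat.cast_pos.2 hN
  have : NeZero M := ⟨by rw [hM]; positivity⟩
  obtain ⟨R, hR⟩ : ∃ R, R = (P : ℝ) ^ (1 / 10 : ℝ) := ⟨_, rfl⟩
  rw [← hR] at hz ⊢
  have hR1 : 1 ≤ R := hR ▸ Real.one_le_rpow hPr (by norm_num)
  have hk0 : (0 : ℝ) < k := by exact_mod_cast (show 0 < k by omega)
  have hk1 : 1 / (k : ℝ) ≤ 1 := by
    rw [div_le_one hk0]; exact_mod_cast (show 1 ≤ k by omega)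
  have hNc : (N : ℝ) ^ (1 / (k : ℝ)) ≤ 2 * P := by
    refine (Real.rpow_le_rpow hN0.le (?_ : (N : ℝ) ≤ (2 * (P : ℝ)) ^ (k : ℝ))
      (by positivity)).trans (le_of_eq ?_)
    · rw [Real.rpow_natCast]
      exact_mod_cast hNP.le.trans (Nat.pow_le_pow_left (show P + 1 ≤ 2 * P by omega) k)
    · rw [← Real.rpow_mul (by positivity), mul_one_div_cancel hk0.ne', Real.rpow_one]
  have hone : ∀ h ∈ arc M (R / N) z,
      ‖sumProduct k c N ((h : ℝ) / M) -
        coefArc k c z * signedMain k c N ((h : ℝ) / M + -centre z)‖ ≤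
          ((n + 1 : ℕ) : ℝ) * (2 * (P : ℝ)) ^ n * (99 * R ^ 2) := by
    intro h hh
    obtain ⟨q, r⟩ := z
    obtain ⟨⟨hq, hqR⟩, -, -⟩ := mem_arcCentres.1 hz
    simp only at hq hqR
    have hqR' : (q : ℝ) ≤ R := (Nat.cast_le.2 hqR).trans (Nat.floor_le (by linarith))
    rw [arc, mem_filter, nearDist] at hh
    obtain ⟨j, hj⟩ : ∃ j, j = round ((h : ℝ) / M - centre ⟨q, r⟩) := ⟨_, rfl⟩
    obtain ⟨β, hβ⟩ : ∃ β, β = (h : ℝ) / M - centre ⟨q, r⟩ - j := ⟨_, rfl⟩
    rw [← hj, ← hβ] at hh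
    have h1 : |β| * N ≤ R := by
      rw [← le_div_iff₀ hN0]
      exact hh.2
    have h2 : 1 + 2 * π * |β| * N ≤ 9 * R := by
      have := mul_le_mul_of_nonneg_left h1 (show (0 : ℝ) ≤ 2 * π by positivity)
      have := mul_le_mul_of_nonneg_right Real.pi_le_four (show (0 : ℝ) ≤ R by linarith)
      linarith
    have happ : ∀ i, ‖waringSum k (rootFloor k (N / (c i).natAbs)) ((c i : ℝ) * ((h : ℝ) / M)) -
        densityFactor k q (c i * r) * (((((c i).natAbs : ℝ) ^ (-(1 / (k : ℝ))) : ℝ) : ℂ) *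
          weightSum (1 / (k : ℝ)) N (((c i).sign : ℝ) * β))‖ ≤ 99 * R ^ 2 := fun i => by
      have hα : waringSum k (rootFloor k (N / (c i).natAbs)) ((c i : ℝ) * ((h : ℝ) / M)) =
          waringSum k (rootFloor k (N / (c i).natAbs)) ((c i : ℝ) * ((r : ℝ) / q + β)) := by
        rw [← waringSum_add_intCast k _ ((c i : ℝ) * ((r : ℝ) / q + β)) (c i * j), hβ, centre]
        congr 1
        push_cast
        ring
      rw [hα]
      refine (norm_waringSum_int_sub_le (by omega) (hc i) (hcN i) (by omega) r β).trans ?_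
      calc 11 * (q : ℝ) * (1 + 2 * π * |β| * N) ≤ 11 * R * (9 * R) :=
            mul_le_mul (by linarith) h2 (by positivity) (by positivity)
        _ = _ := by ring
    have hshift : signedMain k c N ((h : ℝ) / M + -centre ⟨q, r⟩) = signedMain k c N β := by
      refine prod_congr rfl fun i _ => ?_
      rw [← weightSum_sub_intCast _ N _ ((c i).sign * j), hβ]
      congr 1
      push_cast
      ring
    have e' : coefArc k c ⟨q, r⟩ * signedMain k c N β = ∏ i, densityFactor k q (c i * r) *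
        (((((c i).natAbs : ℝ) ^ (-(1 / (k : ℝ))) : ℝ) : ℂ) *
          weightSum (1 / (k : ℝ)) N (((c i).sign : ℝ) * β)) := by
      rw [prod_mul_distrib, prod_mul_distrib, coefArc, signedMain, coefScale, Complex.ofReal_prod,
        factor]
      ring
    rw [hshift, e', sumProduct]
    refine norm_prod_sub_prod_le n _ _ (fun i => (norm_waringSum_le _ _ _).trans ?_) (fun i => ?_)
      happ
    · have : rootFloor k (N / (c i).natAbs) ≤ P :=
        hP ▸ rootFloor_div_le (by omega) (Int.natAbs_pos.2 (hc i)) (hcN i)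
      have : (rootFloor k (N / (c i).natAbs) : ℝ) ≤ P := Nat.cast_le.2 this
      linarith
    · rw [norm_mul, norm_mul]
      refine (mul_le_of_le_one_left (by positivity) (norm_densityFactor_le_one _ _ _)).trans
        ((mul_le_of_le_one_left (norm_nonneg _) ?_).trans
          ((norm_weightSum_le (by positivity) hk1 N _).trans hNc))
      rw [Complex.norm_real, Real.norm_of_nonneg (by positivity)]
      exact Real.rpow_le_one_of_one_le_of_nonpos (by exact_mod_cast Int.natAbs_pos.2 (hc i))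
        (neg_nonpos.2 (by positivity))
  refine (sum_le_card_nsmul _ _ _ hone).trans ?_
  rw [nsmul_eq_mul]
  have hcard : ((arc M (R / N) z).card : ℝ) ≤ (5 + 4 * ((2 * (n + 1) : ℕ) : ℝ) * L) * R ^ 2 := by
    refine (card_arc_le (div_pos (by linarith) hN0) z).trans ?_
    have hlogM := hlog P M hP1 (by exact_mod_cast (NeZero.pos M : 0 < M)) (by
      rw [hM]
      push_cast
      refine mul_le_mul_of_nonneg_left ?_ (by positivity)
      exact_mod_cast hNP.le.trans (Nat.pow_le_pow_left (show P + 1 ≤ 2 * P by omega) k))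
    rw [← hR] at hlogM
    have hMd : 4 * (M : ℝ) * (R / N) = 4 * ((2 * (n + 1) : ℕ) : ℝ) * R := by
      rw [hM]; push_cast; field_simp
    rw [hMd]
    have := mul_le_mul_of_nonneg_left hlogM (show 0 ≤ 4 * ((2 * (n + 1) : ℕ) : ℝ) * R by positivity)
    have h5 : (5 : ℝ) * 1 ≤ 5 * R ^ 2 := mul_le_mul_of_nonneg_left (one_le_pow₀ hR1) (by norm_num)
    linarith
  refine (mul_le_mul_of_nonneg_right hcard (by positivity)).trans (le_of_eq ?_)
  rw [Real.rpow_add (by linarith), Real.rpow_natCast, show (4 / 10 : ℝ) = (1 / 10 : ℝ) * (4 : ℕ) by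
    norm_num, Real.rpow_mul (by linarith), ← hR, Real.rpow_natCast]
  ring

/-- The main term off one arc. -/
theorem exists_signed_tail {k s : ℕ} (hk : 2 ≤ k) (hs : 3 * k ≤ s) {c : Fin s → ℤ}
    (hc : ∀ i, c i ≠ 0) : ∃ C : ℝ, 0 < C ∧ ∀ N P M : ℕ,
    P = rootFloor k N → 1 ≤ N → M = 2 * s * N → ∀ z ∈ arcCentres ⌊(P : ℝ) ^ (1 / 10 : ℝ)⌋₊,
      ‖∑ h ∈ range M \ arc M ((P : ℝ) ^ (1 / 10 : ℝ) / N) z,
          signedMain k c N ((h : ℝ) / M + -centre z)‖ ≤
        C * M * (N : ℝ) ^ ((s : ℝ) / k - 1) * (P : ℝ) ^ (-(1 / 10) : ℝ) := by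
  obtain ⟨L, hL1, hlog⟩ := exists_one_add_log_le k (2 * s)
  obtain ⟨Y, hY⟩ : ∃ Y : ℝ, Y = (s : ℝ) / k - 1 := ⟨_, rfl⟩
  have hk0 : (0 : ℝ) < k := by exact_mod_cast (show 0 < k by omega)
  have hY3 : 2 ≤ Y := by
    rw [hY, le_sub_iff_add_le, le_div_iff₀ hk0]
    exact_mod_cast (show (2 + 1) * k ≤ s by omega)
  refine ⟨3 ^ s * (10 * L), by positivity, fun N P M hP hN hM z _ => ?_⟩
  obtain ⟨hP1, hPN, hNP⟩ := rootFloor_spec (show 1 ≤ k by omega) hN
  rw [← hP] at hP1 hPN hNP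
  have hPr : (1 : ℝ) ≤ P := by exact_mod_cast hP1
  have hN0 : (0 : ℝ) < N := Nat.cast_pos.2 hN
  have hs0 : 1 ≤ s := by omega
  have : NeZero M := ⟨by rw [hM]; positivity⟩
  obtain ⟨R, hR⟩ : ∃ R, R = (P : ℝ) ^ (1 / 10 : ℝ) := ⟨_, rfl⟩
  rw [← hR]
  have hR1 : 1 ≤ R := hR ▸ Real.one_le_rpow hPr (by norm_num)
  obtain ⟨δ, hδ⟩ : ∃ δ, δ = R / (N : ℝ) := ⟨_, rfl⟩
  rw [← hδ]
  have hδ0 : 0 < δ := by rw [hδ]; positivity
  obtain ⟨Z, hZ⟩ : ∃ Z, Z = 1 / (2 * δ) := ⟨_, rfl⟩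
  have hZ0 : 0 < Z := by rw [hZ]; positivity
  have hk1 : 1 / (k : ℝ) ≤ 1 := by
    rw [div_le_one hk0]; exact_mod_cast (show 1 ≤ k by omega)
  refine (norm_sum_le _ _).trans ((sum_le_sum (g := fun h : ℕ =>
    3 ^ s * δ ^ (-Y) * (2 * clip Z ((h : ℝ) / M - centre z))) fun h hh => ?_).trans ?_)
  · rw [Finset.mem_sdiff, arc, mem_filter, not_and, not_le] at hh
    have hd := hh.2 hh.1
    obtain ⟨d, hd'⟩ : ∃ d, d = nearDist ((h : ℝ) / M - centre z) := ⟨_, rfl⟩
    rw [← hd'] at hd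
    have hd0 : 0 < d := hδ0.trans hd
    rw [← sub_eq_add_neg, norm_signedMain hc]
    have h1 := norm_weightSum_le_inv (c := 1 / (k : ℝ)) (by positivity) hk1 N (hd' ▸ hd0)
    rw [← hd'] at h1
    refine (pow_le_pow_left₀ (norm_nonneg _) h1 s).trans ?_
    have hclip : 2 * clip Z ((h : ℝ) / M - centre z) = d⁻¹ := by
      rw [clip, ← hd', if_neg hd0.ne', min_eq_right
        (hZ ▸ one_div_le_one_div_of_le (by positivity) (by linarith))]
      field_simp
    rw [hclip, mul_pow, ← Real.rpow_natCast (d ^ _) s, ← Real.rpow_mul hd0.le,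
      show -(1 / (k : ℝ)) * s = -Y + -1 by rw [hY]; field_simp; ring, Real.rpow_add hd0,
      Real.rpow_neg_one, ← mul_assoc]
    exact mul_le_mul_of_nonneg_right (mul_le_mul_of_nonneg_left
      (Real.rpow_le_rpow_of_nonpos hδ0 hd.le (by linarith)) (by positivity)) (by positivity)
  rw [← mul_sum, ← mul_sum]
  refine (mul_le_mul_of_nonneg_left (mul_le_mul_of_nonneg_left
    ((sum_le_sum_of_subset_of_nonneg sdiff_subset fun i _ _ => clip_nonneg hZ0.le _).trans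
      (sum_clip_grid_le (centre z) hZ0.le)) two_pos.le) (by positivity)).trans ?_
  have hlogM := hlog P M hP1 (by exact_mod_cast (NeZero.pos M : 0 < M)) (by
    rw [hM]
    push_cast
    refine mul_le_mul_of_nonneg_left ?_ (by positivity)
    exact_mod_cast hNP.le.trans (Nat.pow_le_pow_left (show P + 1 ≤ 2 * P by omega) k))
  rw [← hR] at hlogM
  have hMN : (N : ℝ) ≤ M := by
    exact_mod_cast (show N ≤ M from hM ▸ Nat.le_mul_of_pos_left N (by omega))
  have hZM : 5 * Z + 2 * M * (1 + Real.log M) ≤ 5 * L * M * R := by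
    have h1 : Z ≤ (M : ℝ) * R / 2 := by
      rw [hZ, hδ, show 1 / (2 * (R / (N : ℝ))) = N / R / 2 by field_simp]
      refine div_le_div_of_nonneg_right ((div_le_self hN0.le hR1).trans (hMN.trans ?_)) two_pos.le
      exact le_mul_of_one_le_right (Nat.cast_nonneg M) hR1
    have h2 := mul_le_mul_of_nonneg_left hlogM (show 0 ≤ 2 * (M : ℝ) by positivity)
    have h3 : (M : ℝ) * R ≤ (M : ℝ) * R * L := le_mul_of_one_le_right (by positivity) hL1
    have h4 : 0 ≤ (M : ℝ) * R * L := by positivity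
    linarith
  refine (mul_le_mul_of_nonneg_left (mul_le_mul_of_nonneg_left hZM two_pos.le)
    (by positivity)).trans ?_
  have hsave : δ ^ (-Y) * R ≤ (N : ℝ) ^ Y * (P : ℝ) ^ (-(1 / 10) : ℝ) := by
    rw [hδ, Real.div_rpow (by linarith) hN0.le, Real.rpow_neg hN0.le, div_inv_eq_mul,
      mul_comm (R ^ (-Y)), mul_assoc]
    refine mul_le_mul_of_nonneg_left ?_ (by positivity)
    rw [← Real.rpow_add_one (by linarith : R ≠ 0)]
    refine (Real.rpow_le_rpow_of_exponent_le hR1 (show -Y + 1 ≤ -1 by linarith)).trans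
      (le_of_eq ?_)
    rw [hR, ← Real.rpow_mul (by linarith)]
    norm_num
  rw [← hY]
  calc 3 ^ s * δ ^ (-Y) * (2 * (5 * L * M * R))
      = 3 ^ s * (10 * L) * M * (δ ^ (-Y) * R) := by ring
    _ ≤ 3 ^ s * (10 * L) * M * ((N : ℝ) ^ Y * (P : ℝ) ^ (-(1 / 10) : ℝ)) :=
        mul_le_mul_of_nonneg_left hsave (by positivity)
    _ = _ := by ring

theorem sum_coefArc (k : ℕ) {s : ℕ} (c : Fin s → ℤ) (Q : ℕ) :
    ∑ z ∈ arcCentres Q, coefArc k c z = (coefScale k c : ℂ) * ∑ q ∈ Icc 1 Q, term k c q := by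
  rw [arcCentres, sum_sigma, mul_sum]
  refine sum_congr rfl fun q _ => ?_
  rw [term, mul_sum]
  exact sum_congr rfl fun r _ => rfl

/-- **The circle method.** -/
theorem exists_coef_circle {k n : ℕ} (hk : 2 ≤ k) (hn : k * (k + 1) ≤ n)
    {c : Fin (n + 1) → ℤ} (hc : ∀ i, c i ≠ 0) (hc0 : (c 0).natAbs = 1) : ∃ C : ℝ, 0 < C ∧
    ∀ N : ℕ, 1 ≤ N → (∀ i, (c i).natAbs ≤ N) →
      ‖((solCount k c N : ℕ) : ℂ) - (signedWeight k c N : ℂ) * ((coefScale k c : ℂ) *
          ∑ q ∈ Icc 1 ⌊(rootFloor k N : ℝ) ^ (1 / 10 : ℝ)⌋₊, term k c q)‖ ≤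
        C * (N : ℝ) ^ (((n + 1 : ℕ) : ℝ) / k - 1) *
          (rootFloor k N : ℝ) ^ (-(weylSaving k / 2)) := by
  have h3k : 3 * k ≤ n + 1 := three_mul_le_of_lt hk (by omega)
  obtain ⟨C₁, hC₁, hmin⟩ := exists_minor_product hk hn hc hc0
  obtain ⟨C₂, hC₂, harc⟩ := exists_coef_arc_error hk hc
  obtain ⟨C₃, hC₃, htail⟩ := exists_signed_tail hk h3k hc
  obtain ⟨C₅, hC₅, hterm⟩ := exists_term_le hk h3k hc
  obtain ⟨hκ0, hκ1⟩ := coefScale_mem (k := k) hc
  have hk0 : (0 : ℝ) < k := by exact_mod_cast (show 0 < k by omega)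
  have hX2 : 2 ≤ ((n + 1 : ℕ) : ℝ) * (1 / (k : ℝ)) := by
    rw [mul_one_div, le_div_iff₀ hk0]
    exact_mod_cast (show 2 * k ≤ n + 1 by omega)
  obtain ⟨Z, hZ⟩ : ∃ Z, Z = C₅ * ∑' q : ℕ, (q : ℝ) ^ (-(7 / 5) : ℝ) := ⟨_, rfl⟩
  have hZ0 : 0 ≤ Z := hZ ▸ mul_nonneg (by linarith) (tsum_nonneg fun q => by positivity)
  refine ⟨C₁ + C₂ + Z * C₃, by positivity, fun N hN hcN => ?_⟩
  obtain ⟨P, hP⟩ : ∃ P, P = rootFloor k N := ⟨_, rfl⟩
  obtain ⟨hP1, hPN, hNP⟩ := rootFloor_spec (show 1 ≤ k by omega) hN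
  rw [← hP] at hP1 hPN hNP ⊢
  have hPr : (1 : ℝ) ≤ P := by exact_mod_cast hP1
  have hN1 : (1 : ℝ) ≤ N := by exact_mod_cast hN
  obtain ⟨Q, hQ⟩ : ∃ Q, Q = ⌊(P : ℝ) ^ (1 / 10 : ℝ)⌋₊ := ⟨_, rfl⟩
  obtain ⟨M, hM⟩ : ∃ M, M = 2 * (n + 1) * N := ⟨_, rfl⟩
  obtain ⟨δ, hδ⟩ : ∃ δ, δ = (P : ℝ) ^ (1 / 10 : ℝ) / (N : ℝ) := ⟨_, rfl⟩
  obtain ⟨F, hF⟩ : ∃ F : ℕ → ℂ, F = fun h : ℕ => sumProduct k c N ((h : ℝ) / M) := ⟨_, rfl⟩
  have hM0 : (0 : ℝ) < M := by rw [hM]; positivity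
  obtain ⟨σ, hσ⟩ : ∃ σ, σ = weylSaving k / 2 := ⟨_, rfl⟩
  rw [← hσ]
  have hσ' : σ ≤ 1 / 80 := by rw [hσ]; linarith [weylSaving_le_of_two_le hk]
  have hσ0 : 0 ≤ σ := by rw [hσ]; linarith [weylSaving_pos k]
  obtain ⟨E, hE⟩ : ∃ E : ℝ, E = (N : ℝ) ^ (((n + 1 : ℕ) : ℝ) / k - 1) * (P : ℝ) ^ (-σ) :=
    ⟨_, rfl⟩
  have hE0 : 0 ≤ E := by rw [hE]; positivity
  have hY0 : 0 ≤ ((n + 1 : ℕ) : ℝ) / k - 1 := by
    rw [← mul_one_div]; linarith
  have hPE : ∀ e : ℝ, e ≤ ((n + 1 : ℕ) : ℝ) - k - σ → (P : ℝ) ^ e ≤ E := fun e he => by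
    rw [hE]
    refine (Real.rpow_le_rpow_of_exponent_le hPr he).trans ?_
    rw [sub_eq_add_neg _ σ, Real.rpow_add (by linarith)]
    refine mul_le_mul_of_nonneg_right ?_ (by positivity)
    refine le_trans (le_of_eq ?_) (pow_root_le hY0 hPN)
    congr 1
    field_simp
  -- the centres are apart
  have hQP : (Q : ℝ) ≤ (P : ℝ) ^ (1 / 10 : ℝ) := hQ ▸ Nat.floor_le (by positivity)
  have hsep : ((arcCentres Q : Set (Σ _ : ℕ, ℕ))).PairwiseDisjoint (arc M δ) := by
    rcases eq_or_lt_of_le hP1 with h | h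
    · intro z hz w hw hne
      refine absurd ?_ hne
      have hQ1 : Q = 1 := by rw [hQ, ← h]; simp
      obtain ⟨a, b⟩ := z
      obtain ⟨a', b'⟩ := w
      rw [mem_coe, hQ1, mem_arcCentres] at hz hw
      obtain ⟨h1, h2, -⟩ := hz
      obtain ⟨h3, h4, -⟩ := hw
      simp only at h1 h2 h3 h4
      obtain rfl : a = 1 := by omega
      obtain rfl : a' = 1 := by omega
      rw [show b = b' by omega]
    intro z hz w hw hne
    rw [Function.onFun, disjoint_left]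
    intro x hx hx'
    rw [arc, mem_filter] at hx hx'
    have h1 := inv_mul_le_nearDist_centre (mem_coe.1 hz) (mem_coe.1 hw) hne
    have h2 := nearDist_sub_sub_le (centre z) (centre w) ((x : ℝ) / M)
    have hQ0 : (0 : ℝ) < Q := by
      rw [hQ, Nat.cast_pos, Nat.floor_pos]
      exact Real.one_le_rpow hPr (by norm_num)
    have h3 : 2 * δ < 1 / ((Q : ℝ) * Q) := by
      rw [hδ, mul_div_assoc', div_lt_div_iff₀ (by linarith) (by positivity), one_mul]
      have h2P : (2 : ℝ) ≤ P := by exact_mod_cast h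
      calc 2 * (P : ℝ) ^ (1 / 10 : ℝ) * ((Q : ℝ) * Q)
          ≤ P * (P : ℝ) ^ (1 / 10 : ℝ) * ((P : ℝ) ^ (1 / 10 : ℝ) * (P : ℝ) ^ (1 / 10 : ℝ)) :=
            mul_le_mul (mul_le_mul_of_nonneg_right h2P (by positivity))
              (mul_le_mul hQP hQP hQ0.le (by positivity)) (by positivity) (by positivity)
        _ = (P : ℝ) ^ (13 / 10 : ℝ) := by
            nth_rewrite 1 [← Real.rpow_one (P : ℝ)]
            rw [← Real.rpow_add (by linarith), ← Real.rpow_add (by linarith),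
              ← Real.rpow_add (by linarith)]
            norm_num
        _ < (P : ℝ) ^ (k : ℝ) := Real.rpow_lt_rpow_of_exponent_lt (by linarith)
            (lt_of_lt_of_le (by norm_num : (13 / 10 : ℝ) < 2) (by exact_mod_cast hk))
        _ ≤ N := by rw [Real.rpow_natCast]; exact_mod_cast hPN
    linarith
  have hdecomp : ∑ h ∈ range M, F h =
      ∑ h ∈ minorSet M P N, F h + ∑ z ∈ arcCentres Q, ∑ h ∈ arc M δ z, F h := by
    rw [← sum_biUnion hsep, minorSet, ← hQ, ← hδ, sum_sdiff]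
    exact biUnion_subset.2 fun z _ => filter_subset _ _
  have p1 : ‖∑ h ∈ minorSet M P N, F h‖ ≤ M * (C₁ * E) := by
    refine (norm_sum_le _ _).trans (le_trans (le_of_eq (sum_congr rfl fun h _ => by rw [hF]))
      ((hmin N P M hN hP hM hcN).trans ?_))
    rw [mul_right_comm, mul_comm (C₁ * _) (M : ℝ)]
    exact mul_le_mul_of_nonneg_left
      (mul_le_mul_of_nonneg_left (hPE _ (by rw [hσ])) hC₁.le) hM0.le
  have p3 : ‖∑ z ∈ arcCentres Q, ∑ h ∈ arc M δ z, (F h - coefArc k c z *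
      signedMain k c N ((h : ℝ) / M + -centre z))‖ ≤ M * (C₂ * E) := by
    refine (norm_sum_le _ _).trans ((sum_le_card_nsmul _ _ (C₂ * (P : ℝ) ^ ((n : ℝ) + 4 / 10))
      fun z hz => ?_).trans ?_)
    · refine (norm_sum_le _ _).trans ?_
      have := harc N P M hP hN hcN hM z (hQ ▸ hz)
      rw [← hδ] at this
      rwa [hF]
    · rw [nsmul_eq_mul]
      have hcard : ((arcCentres Q).card : ℝ) ≤ (P : ℝ) ^ (2 / 10 : ℝ) := by
        have h1 : (arcCentres Q).card ≤ Q * Q := by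
          rw [arcCentres, card_sigma]
          refine (sum_le_card_nsmul _ _ Q fun q hq => ?_).trans (le_of_eq ?_)
          · rw [card_unitResidues]
            exact (Nat.totient_le q).trans (mem_Icc.1 hq).2
          · simp
        refine (Nat.cast_le.2 h1).trans ?_
        push_cast
        refine (mul_le_mul hQP hQP (Nat.cast_nonneg _) (by positivity)).trans (le_of_eq ?_)
        rw [← Real.rpow_add (by linarith)]
        norm_num
      refine (mul_le_mul_of_nonneg_right hcard (by positivity)).trans ?_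
      have hPM : (P : ℝ) ^ (k : ℝ) ≤ M := by
        rw [Real.rpow_natCast]
        exact_mod_cast hPN.trans (hM ▸ Nat.le_mul_of_pos_left N (by omega))
      calc (P : ℝ) ^ (2 / 10 : ℝ) * (C₂ * (P : ℝ) ^ ((n : ℝ) + 4 / 10))
          = C₂ * ((P : ℝ) ^ (k : ℝ) * (P : ℝ) ^ ((n : ℝ) + 6 / 10 - k)) := by
            rw [mul_left_comm, ← Real.rpow_add (by linarith), ← Real.rpow_add (by linarith)]
            ring_nf
        _ ≤ C₂ * ((M : ℝ) * E) := mul_le_mul_of_nonneg_left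
            (mul_le_mul hPM (hPE _ (by push_cast; linarith)) (by positivity) hM0.le) hC₂.le
        _ = _ := by ring
  have hZsum : ∑ z ∈ arcCentres Q, ‖coefArc k c z‖ ≤ Z := by
    rw [arcCentres, sum_sigma, hZ, ← tsum_mul_left]
    refine le_trans (sum_le_sum fun q _ => le_trans (sum_le_sum fun r _ => ?_)
      (hterm q).1) (Summable.sum_le_tsum _ (fun i _ => by positivity)
        ((Real.summable_nat_rpow.2 (by norm_num)).mul_left C₅))
    rw [coefArc, norm_mul, Complex.norm_real, Real.norm_of_nonneg hκ0.le]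
    exact mul_le_of_le_one_left (norm_nonneg _) hκ1
  have p5 : ‖∑ z ∈ arcCentres Q, coefArc k c z *
      ∑ h ∈ range M \ arc M δ z, signedMain k c N ((h : ℝ) / M + -centre z)‖ ≤
        M * (Z * C₃ * E) := by
    refine (norm_sum_le _ _).trans ((sum_le_sum fun z hz => ?_).trans
      ((sum_mul _ _ (C₃ * M * E)).ge.trans ((mul_le_mul_of_nonneg_right hZsum
        (by positivity)).trans (le_of_eq (by ring)))))
    rw [norm_mul]
    refine mul_le_mul_of_nonneg_left ?_ (norm_nonneg _)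
    have := htail N P M hP hN hM z (hQ ▸ hz)
    rw [← hδ] at this
    refine this.trans ?_
    rw [hE, mul_assoc (C₃ * M)]
    exact mul_le_mul_of_nonneg_left (mul_le_mul_of_nonneg_left
      (Real.rpow_le_rpow_of_exponent_le hPr (by linarith)) (by positivity)) (by positivity)
  have hident : (M : ℂ) * solCount k c N -
      (M : ℂ) * signedWeight k c N * ∑ z ∈ arcCentres Q, coefArc k c z =
      ∑ h ∈ minorSet M P N, F h + ∑ z ∈ arcCentres Q, ∑ h ∈ arc M δ z,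
          (F h - coefArc k c z * signedMain k c N ((h : ℝ) / M + -centre z)) -
        ∑ z ∈ arcCentres Q, coefArc k c z *
          ∑ h ∈ range M \ arc M δ z, signedMain k c N ((h : ℝ) / M + -centre z) := by
    have h1 : ∀ z ∈ arcCentres Q,
        (M : ℂ) * signedWeight k c N * coefArc k c z =
          ∑ h ∈ arc M δ z, coefArc k c z *
              signedMain k c N ((h : ℝ) / M + -centre z) +
            coefArc k c z *
              ∑ h ∈ range M \ arc M δ z, signedMain k c N ((h : ℝ) / M + -centre z) := by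
      intro z _
      rw [← mul_sum, ← mul_add, add_comm (∑ h ∈ arc M δ z, _), sum_sdiff
        (show arc M δ z ⊆ range M from filter_subset _ _),
        sum_grid_signedMain (by omega) hN hM]
      ring
    rw [← sum_grid_sumProduct (by omega) (by omega) hc hcN hN hM, mul_sum, sum_congr rfl h1,
      sum_add_distrib,
      show ∑ h ∈ range M, sumProduct k c N ((h : ℝ) / M) = ∑ h ∈ range M, F h by rw [hF], hdecomp]
    simp only [sum_sub_distrib]
    ring
  have hmain : ‖((solCount k c N : ℕ) : ℂ) -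
      (signedWeight k c N : ℂ) * ∑ z ∈ arcCentres Q, coefArc k c z‖ ≤
        (C₁ + C₂ + Z * C₃) * E := by
    refine le_of_mul_le_mul_left ?_ hM0
    rw [← Complex.norm_natCast M, ← norm_mul, mul_sub, ← mul_assoc, hident, Complex.norm_natCast]
    refine (norm_sub_le _ _).trans ((add_le_add ((norm_add_le _ _).trans (add_le_add p1 p3))
      p5).trans (le_of_eq ?_))
    ring
  rw [← hQ, ← sum_coefArc]
  exact hmain.trans (le_of_eq (by rw [hE]; ring))

/-- The weights from below. -/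
theorem weight_ge {k : ℕ} (hk : 1 ≤ k) {N : ℕ} (hN : 1 ≤ N) :
    (N : ℝ) ^ (1 / (k : ℝ) - 1) / 3 ^ k ≤ weight (1 / (k : ℝ)) N := by
  obtain ⟨e, he⟩ : ∃ e : ℝ, e = 1 / (k : ℝ) := ⟨_, rfl⟩
  rw [← he]
  have hk0 : (0 : ℝ) < k := by exact_mod_cast hk
  have he0 : 0 < e := by rw [he]; positivity
  have he1 : e ≤ 1 := by rw [he, div_le_one hk0]; exact_mod_cast hk
  obtain ⟨L, hL⟩ : ∃ L, L = 3 ^ k := ⟨_, rfl⟩
  have hL0 : 1 ≤ L := hL ▸ Nat.one_le_pow _ _ (by norm_num)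
  have hNL : N ≤ L * N := Nat.le_mul_of_pos_left N hL0
  have hN0 : (1 : ℝ) ≤ N := by exact_mod_cast hN
  have hLe : (L : ℝ) ^ e = 3 := by
    rw [hL, he, Nat.cast_pow, one_div, Real.pow_rpow_inv_natCast (by norm_num) (by omega)]
    norm_num
  have h1 := (abs_sum_weight_sub_le he0 he1 (L * N)).1
  have h2 := (abs_sum_weight_sub_le he0 he1 N).2
  rw [Nat.cast_mul, Real.mul_rpow (Nat.cast_nonneg _) (Nat.cast_nonneg _), hLe,
    ← Ioc_union_Ioc_eq_Ioc (Nat.zero_le N) hNL, sum_union (disjoint_left.2 fun m h h' => by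
      rw [mem_Ioc] at h h'; omega)] at h1
  have h3 : ∑ m ∈ Ioc N (L * N), weight e m ≤ (L : ℝ) * N * weight e N := by
    refine (sum_le_card_nsmul _ _ (weight e N) fun m hm =>
      weight_antitone he0 he1 (mem_Ioc.1 hm).1.le).trans ?_
    rw [nsmul_eq_mul]
    refine mul_le_mul_of_nonneg_right ?_ (weight_nonneg he0.le N)
    rw [Nat.card_Ioc, ← Nat.cast_mul]
    exact Nat.cast_le.2 (Nat.sub_le _ _)
  have h4 : (1 : ℝ) ≤ (N : ℝ) ^ e := Real.one_le_rpow hN0 he0.le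
  rw [Real.rpow_sub (by linarith), Real.rpow_one, div_div, div_le_iff₀ (by positivity)]
  have e3 : ((3 : ℝ) ^ k) = L := by rw [hL]; norm_num
  rw [e3]
  linarith

/-- **The singular integral from below**, for coefficients of both signs. -/
theorem exists_signedWeight_ge {k s : ℕ} (hk : 1 ≤ k) {c : Fin s → ℤ} (hc : ∀ i, c i ≠ 0)
    {i j : Fin s} (hi : 0 < c i) (hj : c j < 0) : ∃ b : ℝ, 0 < b ∧ ∀ N : ℕ, 4 * s ≤ N →
      b * (N : ℝ) ^ ((s : ℝ) / k - 1) ≤ signedWeight k c N := by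
  classical
  have hij : i ≠ j := fun e => by rw [e] at hi; omega
  have hs : 1 ≤ s := i.pos
  obtain ⟨n, hn⟩ : ∃ n, s = n + 1 := ⟨s - 1, by omega⟩
  refine ⟨(1 / 3 ^ k) ^ s * (1 / (4 * (s : ℝ))) ^ n, by positivity, fun N hN => ?_⟩
  obtain ⟨K, hK⟩ : ∃ K, K = N / (2 * s) := ⟨_, rfl⟩
  obtain ⟨H, hH⟩ : ∃ H, H = N / 2 := ⟨_, rfl⟩
  have hsK : s * K ≤ H := by
    have := Nat.mul_div_le N (2 * s)
    rw [← hK, mul_assoc] at this
    omega
  have hHN : H + s * K ≤ N := by omega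
  have hN0 : 0 < N := by omega
  have hK' : (N : ℝ) / (4 * s) ≤ K := by
    have hK2 : 2 ≤ N / (2 * s) := (Nat.le_div_iff_mul_le (by omega)).2 (by omega)
    have h1 : N < (K + 1) * (2 * s) := hK ▸ Nat.lt_mul_of_div_lt (Nat.lt_succ_self _) (by omega)
    have h2 : (K + 1) * (2 * s) ≤ (2 * K) * (2 * s) := Nat.mul_le_mul_right _ (by omega)
    rw [div_le_iff₀ (by positivity)]
    have : N ≤ K * (4 * s) := le_trans h1.le (h2.trans (le_of_eq (by ring)))
    exact_mod_cast this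
  obtain ⟨T, hT⟩ : ∃ T : Finset (Fin s → ℕ), T = Fintype.piFinset fun l : Fin s =>
      if l = i then ({0} : Finset ℕ) else Ioc 0 K := ⟨_, rfl⟩
  obtain ⟨R, hR⟩ : ∃ R : (Fin s → ℕ) → ℤ,
      R = fun t => ∑ l ∈ (univ.erase i).erase j, (c l).sign * (t l : ℤ) := ⟨_, rfl⟩
  obtain ⟨m, hm⟩ : ∃ m : (Fin s → ℕ) → Fin s → ℕ, m = fun t l =>
      if l = i then ((H : ℤ) + t j - R t).toNat else if l = j then H + t j else t l := ⟨_, rfl⟩
  have hTb : ∀ t ∈ T, ∀ l ≠ i, 0 < t l ∧ t l ≤ K := fun t ht l hl => by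
    have := Fintype.mem_piFinset.1 (hT ▸ ht) l
    rwa [if_neg hl, mem_Ioc] at this
  have hRb : ∀ t ∈ T, |R t| + K ≤ ((s * K : ℕ) : ℤ) ∧ |R t| ≤ H := fun t ht => by
    have h1 : |R t| ≤ ((#((univ.erase i).erase j) * K : ℕ) : ℤ) := by
      rw [hR]
      refine (abs_sum_le_sum_abs _ _).trans ((sum_le_card_nsmul _ _ (K : ℤ) fun l hl => ?_).trans
        (by rw [nsmul_eq_mul]; push_cast; rfl))
      rw [abs_mul, Nat.abs_cast]
      refine (mul_le_of_le_one_left (Nat.cast_nonneg _) ?_).trans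
        (Nat.cast_le.2 (hTb t ht l (ne_of_mem_erase (mem_of_mem_erase hl))).2)
      rcases lt_or_gt_of_ne (hc l) with h | h <;>
        simp [h, Int.sign_eq_neg_one_of_neg, Int.sign_eq_one_of_pos]
    have h2 : #((univ.erase i).erase j) * K + K ≤ s * K := by
      rw [card_erase_of_mem (mem_erase.2 ⟨hij.symm, mem_univ j⟩), card_erase_of_mem (mem_univ i),
        card_univ, Fintype.card_fin, ← Nat.succ_mul]
      exact Nat.mul_le_mul_right K (by omega)
    have h3 : ((#((univ.erase i).erase j) * K : ℕ) : ℤ) + K ≤ ((s * K : ℕ) : ℤ) := by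
      exact_mod_cast h2
    have h4 : ((s * K : ℕ) : ℤ) ≤ H := Nat.cast_le.2 hsK
    constructor <;> omega
  have hmem : ∀ t ∈ T, m t ∈ (Fintype.piFinset fun _ : Fin s => Ioc 0 N).filter
      (fun m => ∑ l, (c l).sign * (m l : ℤ) = 0) := fun t ht => by
    obtain ⟨hR1, hR2⟩ := hRb t ht
    obtain ⟨hj1, hj2⟩ := hTb t ht j hij.symm
    have hle := le_abs_self (R t)
    have hge := neg_abs_le (R t)
    have hHN' : ((H : ℤ) + (s * K : ℕ)) ≤ N := by exact_mod_cast hHN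
    refine mem_filter.2 ⟨Fintype.mem_piFinset.2 fun l => mem_Ioc.2 ?_, ?_⟩
    · simp only [hm]
      split_ifs with h1 h2
      · omega
      · omega
      · obtain ⟨h3, h4⟩ := hTb t ht l h1
        omega
    · rw [← add_sum_erase _ _ (mem_univ i),
        ← add_sum_erase _ _ (mem_erase.2 ⟨hij.symm, mem_univ j⟩)]
      have e : ∑ l ∈ (univ.erase i).erase j, (c l).sign * ((m t l : ℕ) : ℤ) = R t := by
        rw [hR]
        refine sum_congr rfl fun l hl => ?_
        simp only [hm, if_neg (ne_of_mem_erase hl), if_neg (ne_of_mem_erase (mem_of_mem_erase hl))]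
      rw [e]
      simp only [hm, if_true, if_neg hij.symm, Int.sign_eq_one_of_pos hi,
        Int.sign_eq_neg_one_of_neg hj]
      omega
  have hinj : Set.InjOn m T := fun t ht u hu e => funext fun l => by
    rw [mem_coe] at ht hu
    by_cases h1 : l = i
    · have a1 := Fintype.mem_piFinset.1 (hT ▸ ht) l
      have a2 := Fintype.mem_piFinset.1 (hT ▸ hu) l
      rw [if_pos h1, mem_singleton] at a1 a2
      rw [a1, a2]
    · have := congrFun e l
      simp only [hm, if_neg h1] at this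
      split_ifs at this with h2
      · subst h2
        omega
      · exact this
  have hw : (N : ℝ) ^ (1 / (k : ℝ) - 1) / 3 ^ k ≤ weight (1 / (k : ℝ)) N := weight_ge hk (by omega)
  have hk0 : (0 : ℝ) < k := by exact_mod_cast hk
  refine le_trans ?_ (sum_le_sum_of_subset_of_nonneg (s := T.image m)
    (image_subset_iff.2 hmem) fun x _ _ => prod_nonneg fun l _ => weight_nonneg (by positivity) _)
  rw [sum_image hinj]
  refine le_trans ?_ (card_nsmul_le_sum T _ (((N : ℝ) ^ (1 / (k : ℝ) - 1) / 3 ^ k) ^ s)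
    fun t ht => ?_)
  · rw [nsmul_eq_mul, hT, Fintype.card_piFinset, ← mul_prod_erase _ _ (mem_univ i), if_pos rfl,
      card_singleton, one_mul, prod_congr rfl fun l hl => by rw [if_neg (ne_of_mem_erase hl)],
      prod_const, card_erase_of_mem (mem_univ i), card_univ, Fintype.card_fin, Nat.card_Ioc,
      Nat.sub_zero, show s - 1 = n by omega, Nat.cast_pow]
    have e : (N : ℝ) ^ ((s : ℝ) / k - 1) = ((N : ℝ) ^ (1 / (k : ℝ) - 1)) ^ s * (N : ℝ) ^ n := by
      rw [← Real.rpow_natCast (_ ^ _) s, ← Real.rpow_mul (Nat.cast_nonneg N),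
        ← Real.rpow_natCast (N : ℝ) n, ← Real.rpow_add (Nat.cast_pos.2 hN0), hn]
      push_cast
      ring_nf
    rw [e, show (1 / 3 ^ k : ℝ) ^ s * (1 / (4 * (s : ℝ))) ^ n *
      (((N : ℝ) ^ (1 / (k : ℝ) - 1)) ^ s * (N : ℝ) ^ n) = ((N : ℝ) / (4 * s)) ^ n *
        ((N : ℝ) ^ (1 / (k : ℝ) - 1) / 3 ^ k) ^ s by simp only [div_pow, one_pow]; ring]
    exact mul_le_mul_of_nonneg_right (pow_le_pow_left₀ (by positivity) hK' n) (by positivity)
  · refine le_trans (le_of_eq (by simp [div_pow])) (prod_le_prod (f := fun _ : Fin s =>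
      (N : ℝ) ^ (1 / (k : ℝ) - 1) / 3 ^ k) (fun _ _ => by positivity) fun l _ => hw.trans ?_)
    exact weight_antitone (by positivity) (by rw [div_le_one hk0]; exact_mod_cast hk)
      (mem_Ioc.1 (Fintype.mem_piFinset.1 (mem_filter.1 (hmem t ht)).1 l)).2

/-- **Solutions in positive integers.** -/
theorem exists_positive_zero {k n : ℕ} (hk : 2 ≤ k) (hn : k * (k + 1) ≤ n)
    {c : Fin (n + 1) → ℤ} (hc : ∀ i, c i ≠ 0) (hc0 : (c 0).natAbs = 1) {i j : Fin (n + 1)}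
    (hi : 0 < c i) (hj : c j < 0) (hloc : ∀ p, p.Prime → LocalPattern k c p) :
    ∃ z : Fin (n + 1) → ℕ, (∀ l, 0 < z l) ∧ ∑ l, c l * (z l : ℤ) ^ k = 0 := by
  have h3k : 3 * k ≤ n + 1 := three_mul_le_of_lt hk (by omega)
  obtain ⟨C, hC, hcirc⟩ := exists_coef_circle hk hn hc hc0
  obtain ⟨b, hb, hJ⟩ := exists_signedWeight_ge (show 1 ≤ k by omega) hc hi hj
  obtain ⟨C₄, hC₄, hser⟩ := exists_term_tail hk h3k hc
  have hS := series_pos hk h3k hc hloc
  obtain ⟨hκ0, -⟩ := coefScale_mem (k := k) hc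
  obtain ⟨T, hT⟩ : ∃ T, T = ∑' q, term k c q := ⟨_, rfl⟩
  rw [← hT] at hS
  have hk0 : (0 : ℝ) < k := by exact_mod_cast (show 0 < k by omega)
  obtain ⟨σ, hσ⟩ : ∃ σ, σ = weylSaving k / 2 := ⟨_, rfl⟩
  have hσ0 : 0 < σ := hσ ▸ half_pos (weylSaving_pos k)
  have hσ' : σ ≤ 1 / 80 := by rw [hσ]; linarith [weylSaving_le_of_two_le hk]
  obtain ⟨δ, hδ, hδ1, hδ2⟩ : ∃ δ, 0 < δ ∧ C₄ * δ ≤ T.re / 2 ∧
      C * δ < coefScale k c * b * (T.re / 2) := by
    refine ⟨min (T.re / 2 / C₄) (coefScale k c * b * (T.re / 2) / (2 * C)),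
      lt_min (by positivity) (by positivity), ?_, ?_⟩
    · rw [← le_div_iff₀' hC₄]; exact min_le_left _ _
    · refine lt_of_le_of_lt (mul_le_mul_of_nonneg_left (min_le_right _ _) hC.le) ?_
      rw [show C * (coefScale k c * b * (T.re / 2) / (2 * C)) =
        coefScale k c * b * (T.re / 2) / 2 by field_simp]
      exact half_lt_self (by positivity)
  have hlim : Tendsto (fun N : ℕ => (2 : ℝ) ^ σ * (N : ℝ) ^ (-(σ / k))) atTop (𝓝 0) := by
    simpa using ((tendsto_rpow_neg_atTop (div_pos hσ0 hk0)).comp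
      tendsto_natCast_atTop_atTop).const_mul ((2 : ℝ) ^ σ)
  obtain ⟨N, ⟨hu, hN⟩, hcN⟩ := (((hlim.eventually (eventually_le_nhds hδ)).and
    (eventually_ge_atTop (4 * (n + 1)))).and
      (eventually_all.2 fun l => eventually_ge_atTop (c l).natAbs)).exists
  have hN1 : 1 ≤ N := by omega
  obtain ⟨hP1, -, hNP⟩ := rootFloor_spec (show 1 ≤ k by omega) hN1
  obtain ⟨P, hP⟩ : ∃ P, P = rootFloor k N := ⟨_, rfl⟩
  have h1 := hcirc N hN1 hcN
  rw [← hP] at h1 hP1 hNP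
  rw [← hσ] at h1
  obtain ⟨u, hudef⟩ : ∃ u, u = (P : ℝ) ^ (-σ) := ⟨_, rfl⟩
  have hu' : u ≤ δ := hudef ▸ (root_neg_le (by omega) hP1 hN1 hNP hσ0.le).trans hu
  obtain ⟨Q, hQ⟩ : ∃ Q, Q = ⌊(P : ℝ) ^ (1 / 10 : ℝ)⌋₊ := ⟨_, rfl⟩
  obtain ⟨X, hX⟩ : ∃ X, X = (N : ℝ) ^ (((n + 1 : ℕ) : ℝ) / k - 1) := ⟨_, rfl⟩
  rw [← hQ, ← hX, ← hudef] at h1
  have hX0 : 0 < X := hX ▸ Real.rpow_pos_of_pos (Nat.cast_pos.2 hN1) _
  have hQu : ((Q + 1 : ℕ) : ℝ) ^ (-(1 / 5) : ℝ) ≤ u := by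
    have hP' : (1 : ℝ) ≤ P := by exact_mod_cast hP1
    have h2 : (P : ℝ) ^ (1 / 10 : ℝ) ≤ ((Q + 1 : ℕ) : ℝ) := by
      push_cast; exact hQ ▸ (Nat.lt_floor_add_one _).le
    refine (Real.rpow_le_rpow_of_nonpos (by positivity) h2 (by norm_num)).trans ?_
    rw [← Real.rpow_mul (by linarith), hudef]
    exact Real.rpow_le_rpow_of_exponent_le hP' (by linarith)
  have h3 : T.re / 2 ≤ (∑ q ∈ Icc 1 Q, term k c q).re := by
    have h4 := (abs_le.1 ((Complex.abs_re_le_norm _).trans (hser Q).2)).1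
    rw [Complex.sub_re, ← hT] at h4
    have h5 := mul_le_mul_of_nonneg_left (hQu.trans hu') hC₄.le
    linarith
  obtain ⟨z, hz⟩ : ((Fintype.piFinset fun l => Icc 1 (rootFloor k (N / (c l).natAbs))).filter
      fun z => ∑ l, c l * (z l : ℤ) ^ k = 0).Nonempty := by
    rw [← card_pos]
    by_contra h0
    rw [← solCount] at h0
    rw [show solCount k c N = 0 by omega, Nat.cast_zero, zero_sub, norm_neg] at h1
    have h6 : signedWeight k c N * (coefScale k c * (∑ q ∈ Icc 1 Q, term k c q).re) ≤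
        C * X * u :=
      le_trans (le_of_eq (by simp)) (((le_abs_self _).trans (Complex.abs_re_le_norm _)).trans h1)
    have hJ' := hJ N (by omega)
    rw [← hX] at hJ'
    have h7 := mul_le_mul hJ' (mul_le_mul_of_nonneg_left h3 hκ0.le) (by positivity)
      (le_trans (by positivity) hJ')
    have h8 := mul_le_mul_of_nonneg_left hu' (mul_nonneg hC.le hX0.le)
    have h9 := mul_lt_mul_of_pos_right hδ2 hX0
    linarith
  exact ⟨z, fun l => (mem_Icc.1 (Fintype.mem_piFinset.1 (mem_filter.1 hz).1 l)).1,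
    (mem_filter.1 hz).2⟩

end FA.BirchForms
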