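import Fermat.Agent.BirchForms.Series
import Mathlib.FieldTheory.ChevalleyWarning
import Mathlib.RingTheory.MvPolynomial.Homogeneous
import Mathlib.NumberTheory.Padics.RingHoms
import Mathlib.Combinatorics.Pigeonhole

/-!
# Local solubility

Nonzero `p`-adic zeros and primitive zeros modulo every power of `p` are the same thing for the
diagonal equation, and more than `k max (k ^ 2, 4 k)` variables always have them: some class of the
valuations modulo `k` has `max (k ^ 2, 4 k)` members, whose unit parts have a zero by the theorem of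
Chevalley and Warning or by a vanishing sum modulo `p ^ (v_p k + 1)` (`2 ^ (v_2 k + 2)`).
-/

set_option autoImplicit false

noncomputable section

namespace FA.BirchForms

open Finset FA.WaringAsymptotic

/-- Primitive zeros of `∑ c i x i ^ k` modulo every power of `p`. -/
def PrimitiveZeros {ι : Type*} [Fintype ι] (k : ℕ) (c : ι → ℤ) (p : ℕ) : Prop :=
  ∀ j : ℕ, ∃ y : ι → ℤ, (∃ i, ¬(p : ℤ) ∣ y i) ∧ (p : ℤ) ^ j ∣ ∑ i, c i * y i ^ k

/-- A bounded common factor can be removed. -/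
theorem primitiveZeros_of_bounded {ι : Type*} [Fintype ι] {k p : ℕ} (hp : p.Prime) {c : ι → ℤ} :
    ∀ E : ℕ, (∀ j : ℕ, ∃ y : ι → ℤ, (∃ i, ¬(p : ℤ) ^ (E + 1) ∣ y i) ∧
      (p : ℤ) ^ j ∣ ∑ i, c i * y i ^ k) → PrimitiveZeros k c p
  | 0, h => fun j => by simpa using h j
  | E + 1, h => by
    refine primitiveZeros_of_bounded hp E fun j => ?_
    obtain ⟨y, ⟨i, hi⟩, hd⟩ := h (j + k)
    by_cases hy : ∃ i, ¬(p : ℤ) ∣ y i
    · obtain ⟨l, hl⟩ := hy
      exact ⟨y, ⟨l, fun hd' => hl ((dvd_pow_self _ E.succ_ne_zero).trans hd')⟩,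
        (pow_dvd_pow _ (Nat.le_add_right j k)).trans hd⟩
    push Not at hy
    choose z hz using hy
    refine ⟨z, ⟨i, fun hd' => hi ?_⟩, ?_⟩
    · rw [hz i, pow_succ']
      exact mul_dvd_mul_left _ hd'
    · rw [sum_congr rfl fun l _ => show c l * y l ^ k = (p : ℤ) ^ k * (c l * z l ^ k) by
        rw [hz l]; ring, ← mul_sum, add_comm, pow_add] at hd
      exact (mul_dvd_mul_iff_left (pow_ne_zero k (Int.natCast_ne_zero.2 hp.ne_zero))).1 hd

/-- **A nonzero `p`-adic zero gives primitive zeros.** -/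
theorem primitiveZeros_of_padic {ι : Type*} [Fintype ι] {k p : ℕ} [hp : Fact p.Prime] {c : ι → ℤ}
    {x : ι → ℚ_[p]} (hx : x ≠ 0) (h : ∑ i, (c i : ℚ_[p]) * x i ^ k = 0) :
    PrimitiveZeros k c p := by
  obtain ⟨i₁, hi₁⟩ := Function.ne_iff.1 hx
  obtain ⟨l, -, hmax⟩ := (univ : Finset ι).exists_max_image (fun i => ‖x i‖) ⟨i₁, mem_univ _⟩
  have hl : x l ≠ 0 :=
    norm_pos_iff.1 (lt_of_lt_of_le (norm_pos_iff.2 hi₁) (hmax i₁ (mem_univ _)))
  obtain ⟨z, hz⟩ : ∃ z : ι → ℤ_[p], ∀ i, (z i : ℚ_[p]) = x i / x l :=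
    ⟨fun i => ⟨x i / x l, by
      rw [norm_div, div_le_one (norm_pos_iff.2 hl)]; exact hmax i (mem_univ i)⟩, fun i => rfl⟩
  have hsum : ∑ i, (c i : ℤ_[p]) * z i ^ k = 0 := by
    refine PadicInt.ext ?_
    show PadicInt.Coe.ringHom (∑ i, (c i : ℤ_[p]) * z i ^ k) = PadicInt.Coe.ringHom 0
    simp only [map_sum, map_mul, map_pow, map_intCast, map_zero]
    rw [sum_congr rfl fun i _ => show (c i : ℚ_[p]) * PadicInt.Coe.ringHom (z i) ^ k =
      (c i : ℚ_[p]) * x i ^ k / x l ^ k by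
        show (c i : ℚ_[p]) * (z i : ℚ_[p]) ^ k = _
        rw [hz, div_pow, mul_div_assoc]]
    rw [← sum_div, h, zero_div]
  have hzl : z l = 1 := PadicInt.ext (by rw [hz, div_self hl, PadicInt.coe_one])
  intro j
  have : Fact (1 < p ^ (j + 1)) := ⟨one_lt_pow₀ hp.out.one_lt j.succ_ne_zero⟩
  have : NeZero (p ^ (j + 1)) := ⟨pow_ne_zero _ hp.out.ne_zero⟩
  refine ⟨fun i => ((PadicInt.toZModPow (j + 1) (z i)).val : ℤ), ⟨l, ?_⟩,
    (pow_dvd_pow _ j.le_succ).trans ?_⟩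
  · simp only [hzl, map_one, ZMod.val_one, Nat.cast_one]
    exact fun hd => hp.out.not_dvd_one (Int.natCast_dvd_natCast.1 (by simpa using hd))
  · rw [← Int.natCast_pow, ← ZMod.intCast_zmod_eq_zero_iff_dvd]
    push_cast
    simp only [ZMod.natCast_zmod_val]
    have h' := congrArg (PadicInt.toZModPow (j + 1)) hsum
    simpa using h'

/-- **A zero of unit coefficients modulo every power of `p`.** -/
theorem exists_unit_zero {ι : Type*} [Fintype ι] {k p : ℕ} (hp : p.Prime) (hk : 2 ≤ k) {u : ι → ℤ}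
    (hu : ∀ i, ¬(p : ℤ) ∣ u i) (hι : max (k * k) (4 * k) ≤ Fintype.card ι) (j : ℕ) :
    ∃ z : ι → ℤ, (∃ i, ¬(p : ℤ) ∣ z i) ∧ (p : ℤ) ^ j ∣ ∑ i, u i * z i ^ k := by
  classical
  have : Fact p.Prime := ⟨hp⟩
  have hk2 : k * 2 ≤ k * k := Nat.mul_le_mul_left k hk
  have hkk : k * k ≤ Fintype.card ι := (le_max_left _ _).trans hι
  have hk4 : 4 * k ≤ Fintype.card ι := (le_max_right _ _).trans hι
  obtain ⟨τ, hτ⟩ : ∃ τ, τ = padicValNat p k := ⟨_, rfl⟩
  obtain ⟨e, he1, he2, z, i₀, hz, hlow⟩ : ∃ e, 1 ≤ e ∧ (τ = 0 ∨ p ≠ 2 ∨ 2 ≤ e) ∧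
      ∃ (z : ι → ℤ) (i₀ : ι), ¬(p : ℤ) ∣ z i₀ ∧ (p : ℤ) ^ (τ + e) ∣ ∑ i, u i * z i ^ k := by
    rcases Nat.eq_zero_or_pos τ with h0 | h0
    · obtain ⟨f, hf⟩ : ∃ f : MvPolynomial ι (ZMod p),
          f = ∑ i, MvPolynomial.C (u i : ZMod p) * MvPolynomial.X i ^ k := ⟨_, rfl⟩
      have hdeg : f.totalDegree < Fintype.card ι := by
        have hle : f.totalDegree ≤ k := by
          rw [hf]
          exact MvPolynomial.IsHomogeneous.totalDegree_le
            (MvPolynomial.IsHomogeneous.sum _ _ k fun i _ =>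
              (MvPolynomial.isHomogeneous_X_pow i k).C_mul _)
        omega
      have heval : ∀ x : ι → ZMod p, MvPolynomial.eval x f = ∑ i, (u i : ZMod p) * x i ^ k :=
        fun x => by simp [hf]
      have hzero : MvPolynomial.eval (0 : ι → ZMod p) f = 0 := by
        rw [heval]; simp [zero_pow (show k ≠ 0 by omega)]
      have h1 : 1 < Fintype.card { x : ι → ZMod p // MvPolynomial.eval x f = 0 } := by
        refine lt_of_lt_of_le hp.one_lt (Nat.le_of_dvd ?_ (char_dvd_card_solutions p hdeg))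
        exact Fintype.card_pos_iff.2 ⟨⟨0, hzero⟩⟩
      obtain ⟨⟨x, hx⟩, hne⟩ := Fintype.exists_ne_of_one_lt_card h1
        ⟨0, hzero⟩
      obtain ⟨i₀, hi₀⟩ := Function.ne_iff.1 (fun e : x = 0 => hne (Subtype.ext e))
      refine ⟨1, le_rfl, Or.inl h0, fun i => ((x i).val : ℤ), i₀, fun hd => hi₀ ?_, ?_⟩
      · rw [Int.natCast_dvd_natCast] at hd
        rw [Pi.zero_apply, ← ZMod.natCast_zmod_val (x i₀),
          (ZMod.natCast_eq_zero_iff _ _).2 hd]
      · rw [h0, zero_add, pow_one, ← ZMod.intCast_zmod_eq_zero_iff_dvd]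
        push_cast
        simp only [ZMod.natCast_zmod_val]
        rw [← heval, hx]
    · have hd : p ^ τ ≤ k := hτ ▸ Nat.le_of_dvd (by omega) pow_padicValNat_dvd
      have hpk : p ≤ k := (Nat.le_self_pow (by omega) p).trans hd
      obtain ⟨e, he1, he2, hle⟩ : ∃ e, 1 ≤ e ∧ (p ≠ 2 ∨ 2 ≤ e) ∧
          p ^ (τ + e) ≤ Fintype.card ι := by
        rcases eq_or_ne p 2 with rfl | hp2
        · refine ⟨2, one_le_two, Or.inr le_rfl, ?_⟩
          rw [pow_add]
          omega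
        · refine ⟨1, le_rfl, Or.inl hp2, ?_⟩
          rw [pow_succ]
          exact (Nat.mul_le_mul hd hpk).trans hkk
      obtain ⟨M, hM⟩ : ∃ M, M = p ^ (τ + e) := ⟨_, rfl⟩
      rw [← hM] at hle
      have hM1 : 1 ≤ M := hM ▸ Nat.one_le_pow _ _ hp.pos
      obtain ⟨f⟩ :=
        Function.Embedding.nonempty_of_card_le (α := Fin M) (β := ι) (by simpa using hle)
      obtain ⟨w, hw⟩ : ∃ w : ℕ → ZMod M,
          w = fun l => if h : l < M then (u (f ⟨l, h⟩) : ZMod M) else 0 := ⟨_, rfl⟩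
      have : NeZero M := ⟨by omega⟩
      obtain ⟨a, b, hne, hab⟩ := Fintype.exists_ne_map_eq_of_card_lt
        (fun l : Fin (M + 1) => ∑ i ∈ range (l : ℕ), w i) (by simp)
      wlog hlt : (a : ℕ) < b generalizing a b
      · exact this b a hne.symm hab.symm
          (lt_of_le_of_ne (not_lt.1 hlt) fun e => hne.symm (Fin.ext e))
      obtain ⟨T, hT⟩ : ∃ T : Finset (Fin M),
          T = univ.filter fun l : Fin M => (a : ℕ) ≤ l ∧ (l : ℕ) < b := ⟨_, rfl⟩
      have haM : (a : ℕ) < M := by omega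
      refine ⟨e, he1, Or.inr he2, fun i => if i ∈ T.image f then 1 else 0, f ⟨a, haM⟩, ?_, ?_⟩
      · dsimp only
        rw [if_pos (mem_image_of_mem f (by simp [hT, hlt]))]
        exact fun hd => hp.not_dvd_one (Int.natCast_dvd_natCast.1 (by simpa using hd))
      · rw [← Int.natCast_pow, ← hM, ← ZMod.intCast_zmod_eq_zero_iff_dvd]
        simp only [ite_pow, one_pow, zero_pow (show k ≠ 0 by omega), mul_ite, mul_one, mul_zero]
        rw [← sum_filter, filter_mem_eq_inter, univ_inter, sum_image f.injective.injOn,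
          Int.cast_sum]
        have e' : ∑ l ∈ T, (u (f l) : ZMod M) = ∑ l ∈ Ico (a : ℕ) b, w l := by
          refine sum_nbij' (fun l : Fin M => (l : ℕ))
            (fun l => if h : l < M then (⟨l, h⟩ : Fin M) else ⟨a, haM⟩) (fun l hl => ?_)
            (fun l hl => ?_) (fun l _ => by simp [l.2]) (fun l hl => ?_) fun l _ => by
              simp [hw, l.2]
          · rw [hT, mem_filter] at hl
            exact mem_Ico.2 hl.2
          · rw [mem_Ico] at hl
            rw [dif_pos (by omega), hT, mem_filter]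
            exact ⟨mem_univ _, hl⟩
          · rw [mem_Ico] at hl
            rw [dif_pos (by omega)]
        rw [e', sum_Ico_eq_sub _ hlt.le, sub_eq_zero]
        exact hab.symm
  obtain ⟨L, hL⟩ : ∃ L, L = max j (τ + e) := ⟨_, rfl⟩
  obtain ⟨S, hS⟩ : ∃ S, S = ∑ i ∈ univ.erase i₀, u i * z i ^ k := ⟨_, rfl⟩
  rw [← add_sum_erase _ _ (mem_univ i₀), ← hS] at hlow
  have hunit := isUnit_primePow hp (hu i₀) L
  have : NeZero (p ^ L) := ⟨pow_ne_zero _ hp.ne_zero⟩
  obtain ⟨u', hu'⟩ : ∃ u' : ℤ, (p : ℤ) ^ L ∣ u i₀ * u' - 1 := by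
    refine ⟨((hunit.unit⁻¹ : (ZMod (p ^ L))ˣ) : ZMod (p ^ L)).val, ?_⟩
    rw [← Int.natCast_pow, ← ZMod.intCast_zmod_eq_zero_iff_dvd]
    push_cast
    rw [ZMod.natCast_zmod_val, hunit.mul_val_inv, sub_self]
  have hb : (p : ℤ) ^ (τ + e) ∣ z i₀ ^ k - -(u' * S) := by
    rw [show z i₀ ^ k - -(u' * S) = u' * (u i₀ * z i₀ ^ k + S) - (u i₀ * u' - 1) * z i₀ ^ k by
      ring]
    exact dvd_sub (hlow.mul_left _)
      (((pow_dvd_pow _ (hL ▸ le_max_right _ _)).trans hu').mul_right _)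
  obtain ⟨r, hr, hrd⟩ := exists_pow_congr_unit hp (show 1 ≤ k by omega) he1 (hτ ▸ he2) hz
    (hτ ▸ hb) L (hτ ▸ hL ▸ le_max_right _ _)
  refine ⟨Function.update z i₀ r, ⟨i₀, by rwa [Function.update_self]⟩,
    (pow_dvd_pow _ (hL ▸ le_max_left _ _)).trans (?_ : (p : ℤ) ^ L ∣ _)⟩
  rw [← add_sum_erase _ _ (mem_univ i₀), Function.update_self,
    sum_congr rfl fun i hi => by rw [Function.update_of_ne (ne_of_mem_erase hi)], ← hS,
    show u i₀ * r ^ k + S = u i₀ * (r ^ k - -(u' * S)) - (u i₀ * u' - 1) * S by ring]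
  exact dvd_sub (hrd.mul_left _) (hu'.mul_right _)

/-- **Many variables always have local zeros.** -/
theorem primitiveZeros_of_many {ι : Type*} [Fintype ι] {k p : ℕ} (hp : p.Prime) (hk : 2 ≤ k)
    {c : ι → ℤ} (hc : ∀ i, c i ≠ 0) (hι : k * max (k * k) (4 * k) ≤ Fintype.card ι) :
    PrimitiveZeros k c p := by
  classical
  choose v u hvu hu _ using fun i => exists_val_unit hp (hc i)
  obtain ⟨m, hm⟩ : ∃ m, m + 1 = max (k * k) (4 * k) :=
    ⟨max (k * k) (4 * k) - 1, by have := le_max_right (k * k) (4 * k); omega⟩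
  obtain ⟨r, -, hr⟩ := exists_lt_card_fiber_of_mul_lt_card_of_maps_to (s := (univ : Finset ι))
    (t := range k) (f := fun i => v i % k) (n := m)
    (fun i _ => mem_range.2 (Nat.mod_lt _ (by omega)))
    (by rw [card_range, card_univ]
        rw [← hm, Nat.mul_add_one] at hι
        omega)
  obtain ⟨S, hS⟩ : ∃ S, S = univ.filter fun i => v i % k = r := ⟨_, rfl⟩
  rw [← hS] at hr
  obtain ⟨V, hV⟩ : ∃ V, V = S.sup v := ⟨_, rfl⟩
  obtain ⟨l, hlS, hlmax⟩ := S.exists_max_image v (card_pos.1 (by omega))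
  have hVl : V = v l := hV ▸ le_antisymm (Finset.sup_le hlmax) (le_sup hlS)
  refine primitiveZeros_of_bounded hp V fun j => ?_
  obtain ⟨z, ⟨i₀, hz⟩, hd⟩ := exists_unit_zero (ι := S) hp hk (u := fun i => u i) (fun i => hu i)
    (by rw [← hm, Fintype.card_coe]; omega) j
  obtain ⟨y, hy⟩ : ∃ y : ι → ℤ,
      y = fun i => if h : i ∈ S then (p : ℤ) ^ ((V - v i) / k) * z ⟨i, h⟩ else 0 := ⟨_, rfl⟩
  have hmod : ∀ i ∈ S, v i + (V - v i) / k * k = V := fun i hi => by
    have h1 : v i ≤ V := hV ▸ le_sup hi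
    have h2 : v i % k = v l % k := by
      rw [hS, mem_filter] at hi hlS
      rw [hi.2, hlS.2]
    rw [Nat.div_mul_cancel ((Nat.modEq_iff_dvd' h1).1 (hVl ▸ h2)), Nat.add_sub_cancel' h1]
  refine ⟨y, ⟨i₀, fun hd' => hz ?_⟩, ?_⟩
  · have e1 : (V - v i₀) / k + 1 ≤ V + 1 := by
      have := (Nat.div_le_self (V - v i₀) k).trans (Nat.sub_le V (v i₀))
      omega
    have h2 := (pow_dvd_pow _ e1).trans hd'
    simp only [hy, dif_pos i₀.2] at h2
    rw [pow_succ] at h2
    exact (mul_dvd_mul_iff_left (pow_ne_zero _ (Int.natCast_ne_zero.2 hp.ne_zero))).1 h2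
  · rw [← sum_subset (subset_univ S) fun i _ hi => by
      simp [hy, dif_neg hi, zero_pow (show k ≠ 0 by omega)], ← sum_coe_sort,
      sum_congr rfl (g := fun i : S => (p : ℤ) ^ V * (u i * z i ^ k)) fun i _ => ?_, ← mul_sum]
    · exact hd.mul_left _
    · simp only [hy, dif_pos i.2, hvu i]
      conv_rhs => rw [← hmod i i.2, pow_add, pow_mul]
      rw [mul_pow]
      ring

end FA.BirchForms
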