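import Fermat.Agent.BirchForms.Circle
import Fermat.Agent.BirchForms.Local

/-!
# Diagonal equations

`∑ c i x i ^ k = 0` in more than `k (k + 1)` variables has a nontrivial integer solution as soon as
it has a real and, for every prime `p`, a primitive one modulo every power of `p`; for odd `k` it
always has one. The signs and the first coefficient are normalised to use the circle method.
-/

set_option autoImplicit false

noncomputable section

namespace FA.BirchForms

open Finset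

theorem exists_zero_of_mixed {k n : ℕ} (hk : 2 ≤ k) (hn : k * (k + 1) ≤ n)
    {c : Fin (n + 1) → ℤ} (hc : ∀ i, c i ≠ 0) {i j : Fin (n + 1)} (hi : 0 < c i) (hj : c j < 0)
    (hloc : ∀ p, p.Prime → Odd k ∨ PrimitiveZeros k c p) :
    ∃ x : Fin (n + 1) → ℤ, x ≠ 0 ∧ ∑ l, c l * x l ^ k = 0 := by
  obtain ⟨a, ha⟩ : ∃ a : ℕ, a = (c 0).natAbs := ⟨_, rfl⟩
  have ha0 : 0 < a := ha ▸ Int.natAbs_pos.2 (hc 0)
  obtain ⟨c', hc'⟩ : ∃ c' : Fin (n + 1) → ℤ,
      c' = Fin.cons (c 0).sign fun l => (a : ℤ) ^ (k - 1) * c l.succ := ⟨_, rfl⟩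
  have hapos : (0 : ℤ) < (a : ℤ) ^ (k - 1) := pow_pos (by exact_mod_cast ha0) _
  have hsgn : ∀ l, (0 < c l → 0 < c' l) ∧ (c l < 0 → c' l < 0) := fun l => by
    refine Fin.cases ?_ (fun m => ?_) l
    · exact ⟨fun h => by simp [hc', Int.sign_eq_one_of_pos h],
        fun h => by simp [hc', Int.sign_eq_neg_one_of_neg h]⟩
    · simp only [hc', Fin.cons_succ]
      exact ⟨mul_pos hapos, mul_neg_of_pos_of_neg hapos⟩
  have hne : ∀ l, c' l ≠ 0 := fun l => by
    rcases lt_or_gt_of_ne (hc l) with h | h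
    · exact ((hsgn l).2 h).ne
    · exact ((hsgn l).1 h).ne'
  have hc0 : c 0 = (c 0).sign * a := by rw [ha, Int.sign_mul_natAbs]
  obtain ⟨j₀, rfl⟩ : ∃ j₀, k = j₀ + 1 := ⟨k - 1, by omega⟩
  rw [Nat.add_sub_cancel] at hc'
  have hloc' : ∀ p, p.Prime → LocalPattern (j₀ + 1) c' p := fun p hp => by
    rcases hloc p hp with hodd | hprim
    · exact LocalPattern.of_odd hp hodd (by rw [Nat.mul_add_one] at hn; omega) hne
    refine LocalPattern.of_primitive hp hne (primitiveZeros_of_bounded hp a fun J => ?_)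
    obtain ⟨y, ⟨l, hl⟩, hd⟩ := hprim J
    refine ⟨Fin.cons ((a : ℤ) * y 0) fun m => y m.succ, ⟨l, fun h => ?_⟩, ?_⟩
    · revert hl h
      refine Fin.cases (fun hl h => ?_) (fun m hl h => ?_) l
      · rw [Fin.cons_zero] at h
        have h1 := Int.le_of_dvd (by exact_mod_cast ha0)
          ((((Nat.prime_iff_prime_int.1 hp).coprime_iff_not_dvd.2 hl).pow_left
            (m := a + 1)).dvd_of_dvd_mul_right h)
        have h2 : a + 1 < p ^ (a + 1) := Nat.lt_pow_self hp.one_lt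
        have h3 : p ^ (a + 1) ≤ a := by exact_mod_cast h1
        omega
      · rw [Fin.cons_succ] at h
        exact hl ((dvd_pow_self _ a.succ_ne_zero).trans h)
    · rw [show ∑ m, c' m * (Fin.cons ((a : ℤ) * y 0) (fun m => y m.succ) : Fin (n + 1) → ℤ) m ^
          (j₀ + 1) = (a : ℤ) ^ j₀ * ∑ m, c m * y m ^ (j₀ + 1) by
        rw [mul_sum, Fin.sum_univ_succ, Fin.sum_univ_succ]
        simp only [hc', Fin.cons_zero, Fin.cons_succ]
        conv_rhs => rw [hc0]
        congr 1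
        · ring
        · exact sum_congr rfl fun m _ => by ring]
      exact hd.mul_left _
  obtain ⟨z, hz, hsum⟩ := exists_positive_zero hk hn hne
    (by rw [hc', Fin.cons_zero, Int.natAbs_sign_of_ne_zero (hc 0)]) ((hsgn i).1 hi)
    ((hsgn j).2 hj) hloc'
  refine ⟨Fin.cons (z 0 : ℤ) fun l => (a : ℤ) * z l.succ, fun e => ?_, ?_⟩
  · have := congrFun e 0
    simp only [Fin.cons_zero, Pi.zero_apply] at this
    have := hz 0
    omega
  · rw [Fin.sum_univ_succ] at hsum ⊢
    simp only [hc', Fin.cons_zero, Fin.cons_succ] at hsum ⊢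
    rw [hc0]
    have h' := congrArg (fun t : ℤ => (a : ℤ) * t) hsum
    simp only [mul_add, mul_sum, mul_zero] at h'
    rw [← h']
    congr 1
    · ring
    · exact sum_congr rfl fun l _ => by ring

/-- Signs do not matter for odd degree. -/
theorem exists_zero_of_odd {k n : ℕ} (hk : Odd k) (hk2 : 2 ≤ k) (hn : k * (k + 1) ≤ n)
    {c : Fin (n + 1) → ℤ} (hc : ∀ i, c i ≠ 0) :
    ∃ x : Fin (n + 1) → ℤ, x ≠ 0 ∧ ∑ l, c l * x l ^ k = 0 := by
  have hn0 : 0 < n := lt_of_lt_of_le (Nat.mul_pos hk.pos k.succ_pos) hn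
  obtain ⟨ε, hε⟩ : ∃ ε : Fin (n + 1) → ℤ,
      ε = fun l => if l = 0 then (c l).sign else -(c l).sign := ⟨_, rfl⟩
  have hε1 : ∀ l, ε l = 1 ∨ ε l = -1 := fun l => by
    rcases lt_or_gt_of_ne (hc l) with h | h <;> by_cases hl : l = 0
    · exact Or.inr (by simp only [hε, if_pos hl, Int.sign_eq_neg_one_of_neg h])
    · exact Or.inl (by simp only [hε, if_neg hl, Int.sign_eq_neg_one_of_neg h, neg_neg])
    · exact Or.inl (by simp only [hε, if_pos hl, Int.sign_eq_one_of_pos h])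
    · exact Or.inr (by simp only [hε, if_neg hl, Int.sign_eq_one_of_pos h])
  have hlast : Fin.last n ≠ 0 := fun e => by
    have := congrArg Fin.val e
    simp at this
    omega
  obtain ⟨x, hx, h⟩ := exists_zero_of_mixed hk2 hn (c := fun l => ε l * c l)
    (fun l => mul_ne_zero (by rcases hε1 l with e | e <;> omega) (hc l)) (i := 0) (j := Fin.last n)
    (by simp only [hε, if_true, Int.sign_mul_self]; exact_mod_cast Int.natAbs_pos.2 (hc 0))
    (by
      simp only [hε, if_neg hlast, neg_mul, Int.sign_mul_self, neg_neg_iff_pos]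
      exact_mod_cast Int.natAbs_pos.2 (hc _))
    fun p _ => Or.inl hk
  refine ⟨fun l => ε l * x l, fun e => hx (funext fun l => ?_), ?_⟩
  · rcases hε1 l with e' | e' <;> simpa [e'] using congrFun e l
  · rw [← h]
    refine sum_congr rfl fun l _ => ?_
    rcases hε1 l with e' | e' <;> simp [e', hk.neg_pow]

/-- **Diagonal equations of odd degree.** -/
theorem exists_diagonal_zero {ι : Type*} [Fintype ι] {k : ℕ} (hk : Odd k)
    (hι : k * (k + 1) < Fintype.card ι) (c : ι → ℤ) :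
    ∃ x : ι → ℤ, x ≠ 0 ∧ ∑ i, c i * x i ^ k = 0 := by
  classical
  by_cases h0 : ∃ i, c i = 0
  · obtain ⟨i, hi⟩ := h0
    refine ⟨Pi.single i 1, fun e => by simpa using congrFun e i, ?_⟩
    rw [sum_eq_single i (fun j _ hj => by simp [hj, zero_pow hk.pos.ne']) (by simp), hi, zero_mul]
  push Not at h0
  obtain ⟨n, hn⟩ : ∃ n, Fintype.card ι = n + 1 := ⟨Fintype.card ι - 1, by omega⟩
  obtain ⟨e⟩ : Nonempty (Fin (n + 1) ≃ ι) := ⟨((Fintype.equivFinOfCardEq hn)).symm⟩
  rcases eq_or_ne k 1 with rfl | hk1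
  · obtain ⟨i, j, hij⟩ := Fintype.exists_pair_of_one_lt_card (α := ι) (by omega)
    refine ⟨fun l => if l = i then c j else if l = j then -c i else 0,
      fun e' => h0 j (by simpa using congrFun e' i), ?_⟩
    rw [sum_eq_add i j hij (fun l _ hl => by simp [hl.1, hl.2])
      (fun h => absurd (mem_univ i) h) fun h => absurd (mem_univ j) h]
    simp [hij.symm]
    ring
  obtain ⟨r, hr⟩ := hk
  obtain ⟨x, hx, h⟩ := exists_zero_of_odd (hr ▸ odd_two_mul_add_one r) (by omega)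
    (show k * (k + 1) ≤ n by omega) (c := fun l => c (e l)) fun l => h0 _
  refine ⟨fun i => x (e.symm i),
    fun e' => hx (funext fun l => by simpa using congrFun e' (e l)), ?_⟩
  rw [← h]
  exact (Fintype.sum_equiv e _ _ fun l => by simp).symm

/-- **Rational coefficients.** -/
theorem exists_diagonal_zero_rat {ι : Type*} [Fintype ι] {k : ℕ} (hk : Odd k)
    (hι : k * (k + 1) < Fintype.card ι) (c : ι → ℚ) :
    ∃ x : ι → ℚ, x ≠ 0 ∧ ∑ i, c i * x i ^ k = 0 := by
  obtain ⟨⟨D, hD⟩, hint⟩ := IsLocalization.exist_integer_multiples_of_finite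
    (nonZeroDivisors ℤ) (S := ℚ) c
  choose m hm using hint
  obtain ⟨x, hx, h⟩ := exists_diagonal_zero hk hι m
  refine ⟨fun i => x i, fun e => hx (funext fun i => by simpa using congrFun e i), ?_⟩
  have hD0 : (D : ℚ) ≠ 0 := Int.cast_ne_zero.2 (nonZeroDivisors.ne_zero hD)
  refine (mul_eq_zero.1 ?_).resolve_left hD0
  rw [mul_sum]
  have h' := congrArg (fun z : ℤ => (z : ℚ)) h
  push_cast at h'
  rw [← h']
  refine sum_congr rfl fun i _ => ?_
  have := hm i
  simp only [algebraMap_int_eq, eq_intCast, Algebra.smul_def] at this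
  rw [← mul_assoc, this]

/-- A definite form has no real zero. -/
theorem odd_or_mixed_of_real {k n : ℕ} {c : Fin n → ℤ} (hc : ∀ i, c i ≠ 0) {x : Fin n → ℝ}
    (hx : x ≠ 0) (h : ∑ i, (c i : ℝ) * x i ^ k = 0) :
    Odd k ∨ (∃ i, 0 < c i) ∧ ∃ j, c j < 0 := by
  rcases Nat.even_or_odd k with hev | hodd
  swap
  · exact Or.inl hodd
  obtain ⟨i, hi⟩ := Function.ne_iff.1 hx
  have key : ∀ d : Fin n → ℤ, (∀ l, 0 < d l) → ∑ l, (d l : ℝ) * x l ^ k ≠ 0 := fun d hd => by
    refine (sum_pos' (fun l _ => mul_nonneg (by exact_mod_cast (hd l).le) (hev.pow_nonneg _))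
      ⟨i, mem_univ i, mul_pos (by exact_mod_cast hd i) (hev.pow_pos hi)⟩).ne'
  refine Or.inr ⟨?_, ?_⟩ <;> by_contra hall <;> push Not at hall
  · refine key (fun l => -c l) (fun l => neg_pos.2 (lt_of_le_of_ne (hall l) (hc l))) ?_
    push_cast
    simp only [neg_mul, sum_neg_distrib, h, neg_zero]
  · exact key c (fun l => lt_of_le_of_ne (hall l) (hc l).symm) h

/-- **The Hasse principle.** -/
theorem exists_zero_of_local {k n : ℕ} (hk : 2 ≤ k) (hn : k * (k + 1) < n) {c : Fin n → ℤ}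
    (hc : ∀ i, c i ≠ 0) (hsign : Odd k ∨ (∃ i, 0 < c i) ∧ ∃ j, c j < 0)
    (hloc : ∀ p, p.Prime → Odd k ∨ PrimitiveZeros k c p) :
    ∃ x : Fin n → ℤ, x ≠ 0 ∧ ∑ l, c l * x l ^ k = 0 := by
  obtain ⟨m, rfl⟩ : ∃ m, n = m + 1 := ⟨n - 1, by omega⟩
  rcases hsign with hodd | ⟨⟨i, hi⟩, j, hj⟩
  · exact exists_zero_of_odd hodd hk (by omega) hc
  · exact exists_zero_of_mixed hk (by omega) hc hi hj hloc

end FA.BirchForms
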