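import Mathlib.RingTheory.MvPolynomial.Homogeneous
import Mathlib.Algebra.MvPolynomial.Monad
import Mathlib.LinearAlgebra.Pi

/-!
# Forms and linear substitutions

The pullback of a form along a linear map, and the decomposition of a form in two groups of
variables by the exponents of the first group. When the parts of mixed degree vanish on `(u, w)`,
the form is `F (u) + t ^ d F (w)` at `(u, t w)`.
-/

set_option autoImplicit false

noncomputable section

namespace FA.BirchForms

open Finset MvPolynomial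

variable {σ τ : Type*}

/-- The form `t ↦ F (L t)`. -/
def pullback [Fintype τ] [DecidableEq τ] (L : (τ → ℚ) →ₗ[ℚ] (σ → ℚ)) (F : MvPolynomial σ ℚ) :
    MvPolynomial τ ℚ :=
  bind₁ (fun i => ∑ j, C (L (Pi.single j 1) i) * X j) F

theorem eval_pullback [Fintype τ] [DecidableEq τ] (L : (τ → ℚ) →ₗ[ℚ] (σ → ℚ))
    (F : MvPolynomial σ ℚ) (t : τ → ℚ) : eval t (pullback L F) = eval (L t) F := by
  rw [pullback]
  show eval₂Hom (RingHom.id ℚ) t _ = _
  rw [eval₂Hom_bind₁]
  refine congrArg (fun g => eval g F) (funext fun i => ?_)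
  conv_rhs => rw [← univ_sum_single t, map_sum, sum_apply]
  rw [map_sum]
  refine sum_congr rfl fun j _ => ?_
  rw [show Pi.single j (t j) = t j • (Pi.single j 1 : τ → ℚ) by
    rw [← Pi.single_smul, smul_eq_mul, mul_one], map_smul]
  simp [mul_comm]

theorem isHomogeneous_pullback [Fintype τ] [DecidableEq τ] (L : (τ → ℚ) →ₗ[ℚ] (σ → ℚ))
    {F : MvPolynomial σ ℚ} {d : ℕ} (hF : F.IsHomogeneous d) : (pullback L F).IsHomogeneous d := by
  have h := hF.aeval (fun i => ∑ j, C (L (Pi.single j 1) i) * X j) (n := 1) fun i =>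
    IsHomogeneous.sum _ _ _ fun j _ => isHomogeneous_C_mul_X _ _
  rwa [one_mul] at h

theorem sum_eq_degree [Fintype σ] {F : MvPolynomial σ ℚ} {d : ℕ} (hF : F.IsHomogeneous d)
    {s : σ →₀ ℕ} (hs : s ∈ F.support) : ∑ i, s i = d := by
  rw [← hF (mem_support_iff.1 hs), Finsupp.weight_apply, Finsupp.sum_fintype _ _ (by simp)]
  simp

theorem eval_smul_homogeneous [Fintype σ] {F : MvPolynomial σ ℚ} {d : ℕ}
    (hF : F.IsHomogeneous d) (t : ℚ) (x : σ → ℚ) : eval (t • x) F = t ^ d * eval x F := by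
  rw [eval_eq', eval_eq', mul_sum]
  refine sum_congr rfl fun s hs => ?_
  simp only [Pi.smul_apply, smul_eq_mul, mul_pow, prod_mul_distrib, prod_pow_eq_pow_sum,
    sum_eq_degree hF hs]
  ring

/-- **The decomposition by the exponents of the first variables.** -/
theorem exists_bidegree [Fintype σ] [Fintype τ] [DecidableEq σ] {d : ℕ}
    (G : MvPolynomial (σ ⊕ τ) ℚ) (hG : G.IsHomogeneous d) :
    ∃ h : (σ → Fin (d + 1)) → MvPolynomial τ ℚ,
      (∀ α, (h α).IsHomogeneous (d - ∑ a, (α a : ℕ))) ∧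
        (∀ α, d < ∑ a, (α a : ℕ) → h α = 0) ∧
        ∀ u w, eval (Sum.elim u w) G = ∑ α, (∏ a, u a ^ (α a : ℕ)) * eval w (h α) := by
  obtain ⟨h, hh⟩ : ∃ h : (σ → Fin (d + 1)) → MvPolynomial τ ℚ, h = fun α =>
      ∑ s ∈ G.support.filter (fun s => ∀ a, s (Sum.inl a) = (α a : ℕ)),
        C (G.coeff s) * ∏ b, X b ^ s (Sum.inr b) := ⟨_, rfl⟩
  have hdeg : ∀ (α : σ → Fin (d + 1)) s,
      s ∈ G.support.filter (fun s => ∀ a, s (Sum.inl a) = (α a : ℕ)) →
        ∑ a, (α a : ℕ) + ∑ b, s (Sum.inr b) = d := fun α s hs => by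
    obtain ⟨h1, h2⟩ := mem_filter.1 hs
    have := sum_eq_degree hG h1
    rwa [Fintype.sum_sum_type, sum_congr rfl fun a _ => h2 a] at this
  refine ⟨h, fun α => ?_, fun α hα => ?_, fun u w => ?_⟩
  · rw [hh]
    refine IsHomogeneous.sum _ _ _ fun s hs => IsHomogeneous.C_mul ?_ _
    convert IsHomogeneous.prod univ (fun b => (X b : MvPolynomial τ ℚ) ^ s (Sum.inr b))
      (fun b => s (Sum.inr b)) fun b _ => isHomogeneous_X_pow b _ using 1
    have := hdeg α s hs
    omega
  · rw [hh]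
    refine sum_eq_zero fun s hs => ?_
    have := hdeg α s hs
    omega
  · simp only [hh, sum_filter, map_sum, apply_ite (eval w), map_zero, map_mul, eval_C, map_prod,
      map_pow, eval_X, mul_sum, mul_ite, mul_zero]
    rw [sum_comm, eval_eq']
    refine sum_congr rfl fun s hs => ?_
    have hle : ∀ a, s (Sum.inl a) < d + 1 := fun a => Nat.lt_succ_of_le
      ((single_le_sum (f := fun i => s i) (fun i _ => Nat.zero_le _) (mem_univ _)).trans
        (sum_eq_degree hG hs).le)
    rw [sum_eq_single (fun a => ⟨s (Sum.inl a), hle a⟩)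
      (fun α _ hα => if_neg fun e => hα (funext fun a => Fin.ext (e a).symm))
      (fun hn => absurd (mem_univ _) hn), if_pos fun _ => rfl, Fintype.prod_sum_type]
    simp only [Sum.elim_inl, Sum.elim_inr]
    ring

/-- The part of degree `e` in the first variables, as a form in them. -/
def bidegreePart [Fintype σ] [DecidableEq σ] {d : ℕ} (h : (σ → Fin (d + 1)) → MvPolynomial τ ℚ)
    (w : τ → ℚ) (e : ℕ) : MvPolynomial σ ℚ :=
  ∑ α ∈ univ.filter (fun α : σ → Fin (d + 1) => ∑ a, (α a : ℕ) = e),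
    C (eval w (h α)) * ∏ a, X a ^ (α a : ℕ)

theorem isHomogeneous_bidegreePart [Fintype σ] [DecidableEq σ] {d : ℕ}
    (h : (σ → Fin (d + 1)) → MvPolynomial τ ℚ) (w : τ → ℚ) (e : ℕ) :
    (bidegreePart h w e).IsHomogeneous e :=
  IsHomogeneous.sum _ _ _ fun α hα => IsHomogeneous.C_mul ((mem_filter.1 hα).2 ▸
    IsHomogeneous.prod univ (fun a => (X a : MvPolynomial σ ℚ) ^ (α a : ℕ)) (fun a => (α a : ℕ))
      fun a _ => isHomogeneous_X_pow a _) _

/-- **The form splits** when the parts of mixed degree vanish. -/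
theorem eval_split [Fintype σ] [Fintype τ] [DecidableEq σ] {d : ℕ} (hd : Odd d)
    {G : MvPolynomial (σ ⊕ τ) ℚ} (hG : G.IsHomogeneous d)
    {h : (σ → Fin (d + 1)) → MvPolynomial τ ℚ}
    (hh : ∀ α, (h α).IsHomogeneous (d - ∑ a, (α a : ℕ)))
    (hbig : ∀ α, d < ∑ a, (α a : ℕ) → h α = 0)
    (heval : ∀ u w, eval (Sum.elim u w) G = ∑ α, (∏ a, u a ^ (α a : ℕ)) * eval w (h α))
    {w : τ → ℚ} (heven : ∀ α : σ → Fin (d + 1), Even (∑ a, (α a : ℕ)) → 0 < ∑ a, (α a : ℕ) →
      (∑ a, (α a : ℕ)) < d → eval w (h α) = 0)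
    (U : Submodule ℚ (σ → ℚ))
    (hodd : ∀ e, Odd e → e < d → ∀ u ∈ U, eval u (bidegreePart h w e) = 0)
    {u : σ → ℚ} (hu : u ∈ U) (t : ℚ) :
    eval (Sum.elim u (t • w)) G = eval (Sum.elim u 0) G + t ^ d * eval (Sum.elim 0 w) G := by
  obtain ⟨Q, hQ⟩ : ∃ Q : (σ → ℚ) → ℕ → ℚ, Q = fun u e => eval u (bidegreePart h w e) := ⟨_, rfl⟩
  have key : ∀ v ∈ U, ∀ s : ℚ, eval (Sum.elim v (s • w)) G = s ^ d * Q v 0 + Q v d := by
    intro v hv s
    have e1 : eval (Sum.elim v (s • w)) G = ∑ e ∈ range (d + 1), s ^ (d - e) * Q v e := by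
      rw [heval, ← sum_filter_add_sum_filter_not univ fun α : σ → Fin (d + 1) =>
          (∑ a, (α a : ℕ)) < d + 1,
        sum_eq_zero (s := univ.filter fun α : σ → Fin (d + 1) => ¬(∑ a, (α a : ℕ)) < d + 1)
          fun α hα => by rw [hbig α (by simp at hα; omega), map_zero, mul_zero],
        add_zero, ← sum_fiberwise_of_maps_to (g := fun α : σ → Fin (d + 1) => ∑ a, (α a : ℕ))
          (t := range (d + 1)) fun α hα => mem_range.2 (mem_filter.1 hα).2]
      refine sum_congr rfl fun e he => ?_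
      simp only [hQ, bidegreePart, map_sum, map_mul, eval_C, map_prod, map_pow, eval_X, mul_sum]
      refine sum_congr ?_ fun α hα => ?_
      · ext α
        simp only [mem_filter, mem_univ, true_and]
        exact ⟨fun h => h.2, fun h => ⟨h ▸ mem_range.1 he, h⟩⟩
      · rw [eval_smul_homogeneous (hh α), (mem_filter.1 hα).2]
        ring
    rw [e1, sum_eq_add 0 d hd.pos.ne (fun e he hne => ?_)
      (fun h => absurd (mem_range.2 d.succ_pos) h) (fun h => absurd (mem_range.2 d.lt_succ_self) h),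
      Nat.sub_zero, Nat.sub_self, pow_zero, one_mul]
    have hlt : e < d := lt_of_le_of_ne (Nat.lt_succ_iff.1 (mem_range.1 he)) hne.2
    rcases Nat.even_or_odd e with hev | hod
    · rw [show Q v e = 0 from ?_, mul_zero]
      simp only [hQ, bidegreePart, map_sum, map_mul, eval_C]
      refine sum_eq_zero fun α hα => ?_
      have e2 := (mem_filter.1 hα).2
      rw [heven α (e2 ▸ hev) (e2 ▸ Nat.pos_of_ne_zero hne.1) (e2 ▸ hlt), zero_mul]
    · rw [show Q v e = 0 from hQ ▸ hodd e hod hlt v hv, mul_zero]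
  have hc : ∀ v, Q v 0 = Q 0 0 := fun v => by
    simp only [hQ, bidegreePart, map_sum, map_mul, eval_C, map_prod, map_pow, eval_X]
    refine sum_congr rfl fun α hα => congrArg _ (prod_congr rfl fun a _ => ?_)
    rw [Nat.le_zero.1 ((single_le_sum (f := fun a => (α a : ℕ)) (fun _ _ => Nat.zero_le _)
      (mem_univ a)).trans (mem_filter.1 hα).2.le), pow_zero, pow_zero]
  have hd0 : ∀ v ∈ U, eval (Sum.elim v 0) G = Q v d := fun v hv => by
    have := key v hv 0
    rwa [zero_smul, zero_pow hd.pos.ne', zero_mul, zero_add] at this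
  have h00 : Q 0 d = 0 := by
    rw [← hd0 0 U.zero_mem, Sum.elim_zero_zero]
    have := eval_smul_homogeneous hG 0 0
    rwa [zero_smul, zero_pow hd.pos.ne', zero_mul] at this
  have h1 := key 0 U.zero_mem 1
  rw [one_smul, one_pow, one_mul, h00, add_zero] at h1
  rw [key u hu t, hc u, hd0 u hu, h1, add_comm]

end FA.BirchForms
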