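import Fermat.Agent.BirchForms.Diagonal
import Fermat.Agent.BirchForms.Forms
import Mathlib.LinearAlgebra.Dimension.Constructions

/-!
# Birch's theorem on forms of odd degree

A form of odd degree `d` in many variables becomes diagonal on a subspace: if the coefficient forms
of odd degree vanish at `w`, and on a large subspace of other variables those of the even degrees
do, then it is the sum of a form on that subspace and `t ^ d F (w)`. With the diagonal equations
this gives a large subspace of zeros, by induction on the degree for any number of forms.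
-/

set_option autoImplicit false

noncomputable section

namespace FA.BirchForms

open Finset MvPolynomial

/-- Forms of degree `d` in many variables vanish on an `m`-dimensional subspace, for every `m`. -/
def Solvable (d : ℕ) : Prop :=
  ∀ m : ℕ, ∃ n₀ : ℕ, ∀ n, n₀ ≤ n → ∀ F : MvPolynomial (Fin n) ℚ, F.IsHomogeneous d →
    ∃ L : (Fin m → ℚ) →ₗ[ℚ] (Fin n → ℚ), Function.Injective L ∧ ∀ t, eval (L t) F = 0

/-- Families of such forms vanish on a common subspace. -/
theorem exists_family_zeros : ∀ (r : ℕ) (d : Fin r → ℕ), (∀ i, Solvable (d i)) → ∀ m : ℕ,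
    ∃ n₀ : ℕ, ∀ n, n₀ ≤ n → ∀ F : Fin r → MvPolynomial (Fin n) ℚ,
      (∀ i, (F i).IsHomogeneous (d i)) →
        ∃ L : (Fin m → ℚ) →ₗ[ℚ] (Fin n → ℚ), Function.Injective L ∧ ∀ i t, eval (L t) (F i) = 0
  | 0, _, _, m => ⟨m, fun n hn F _ => by
      have hinj : Function.Injective (Fin.castLE hn) := Fin.castLE_injective hn
      exact ⟨Function.ExtendByZero.linearMap ℚ (Fin.castLE hn), fun x y e => funext fun j => by
        simpa [hinj.extend_apply] using congrFun e (Fin.castLE hn j), fun i => i.elim0⟩⟩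
  | r + 1, d, hd, m => by
    obtain ⟨n₁, h₁⟩ := exists_family_zeros r (fun i => d i.succ) (fun i => hd i.succ) m
    obtain ⟨n₀, h₀⟩ := hd 0 n₁
    refine ⟨n₀, fun n hn F hF => ?_⟩
    obtain ⟨L, hL, hz⟩ := h₀ n hn (F 0) (hF 0)
    obtain ⟨K, hK, hz'⟩ := h₁ n₁ le_rfl (fun i => pullback L (F i.succ))
      fun i => isHomogeneous_pullback L (hF i.succ)
    refine ⟨L ∘ₗ K, hL.comp hK, fun i t => ?_⟩
    refine Fin.cases (hz (K t)) (fun j => ?_) i
    have := hz' j t
    rwa [eval_pullback] at this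

theorem exists_fintype_zeros {ι : Type*} [Fintype ι] (d : ι → ℕ) (hd : ∀ i, Solvable (d i))
    (m : ℕ) : ∃ n₀ : ℕ, ∀ n, n₀ ≤ n → ∀ F : ι → MvPolynomial (Fin n) ℚ,
      (∀ i, (F i).IsHomogeneous (d i)) →
        ∃ L : (Fin m → ℚ) →ₗ[ℚ] (Fin n → ℚ), Function.Injective L ∧
          ∀ i t, eval (L t) (F i) = 0 := by
  obtain ⟨n₀, h⟩ := exists_family_zeros _ (fun i => d ((Fintype.equivFin ι).symm i))
    (fun i => hd _) m
  refine ⟨n₀, fun n hn F hF => ?_⟩
  obtain ⟨L, hL, hz⟩ := h n hn (fun i => F ((Fintype.equivFin ι).symm i)) fun i => hF _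
  exact ⟨L, hL, fun i t => by simpa using hz (Fintype.equivFin ι i) t⟩

/-- `(t 0, t') ↦ (K t', t 0 w)`. -/
def glue {M r s n : ℕ} (e : Fin M ⊕ Fin r ≃ Fin n) (K : (Fin s → ℚ) →ₗ[ℚ] (Fin M → ℚ))
    (w : Fin r → ℚ) : (Fin (s + 1) → ℚ) →ₗ[ℚ] (Fin n → ℚ) where
  toFun t x := Sum.elim (K (Fin.tail t)) (t 0 • w) (e.symm x)
  map_add' a b := funext fun x => by
    rw [show Fin.tail (a + b) = Fin.tail a + Fin.tail b from rfl, map_add]
    rcases h : e.symm x with i | i <;> simp [h, add_smul]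
  map_smul' c a := funext fun x => by
    rw [show Fin.tail (c • a) = c • Fin.tail a from rfl, map_smul]
    rcases h : e.symm x with i | i <;> simp [h, mul_smul]

theorem glue_injective {M r s n : ℕ} (e : Fin M ⊕ Fin r ≃ Fin n)
    {K : (Fin s → ℚ) →ₗ[ℚ] (Fin M → ℚ)} (hK : Function.Injective K) {w : Fin r → ℚ} (hw : w ≠ 0) :
    Function.Injective (glue e K w) := fun a b h => by
  have hx : ∀ z, Sum.elim (K (Fin.tail a)) (a 0 • w) z = Sum.elim (K (Fin.tail b)) (b 0 • w) z :=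
    fun z => by simpa [glue] using congrFun h (e z)
  have h1 : Fin.tail a = Fin.tail b := hK (funext fun i => hx (Sum.inl i))
  have h2 : a 0 • w = b 0 • w := funext fun i => hx (Sum.inr i)
  rw [← Fin.cons_self_tail a, ← Fin.cons_self_tail b, h1, smul_left_injective ℚ hw h2]

/-- The vectors `(u, 0)`. -/
def inlMap {σ τ : Type*} : (σ → ℚ) →ₗ[ℚ] (σ ⊕ τ → ℚ) where
  toFun u := Sum.elim u 0
  map_add' a b := funext fun x => by cases x <;> simp
  map_smul' c a := funext fun x => by cases x <;> simp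

/-- **Diagonalisation**: a form of odd degree in many variables is diagonal on a subspace. -/
theorem exists_diagonal {d : ℕ} (hd : Odd d) (hlow : ∀ e, Odd e → e < d → Solvable e) :
    ∀ s : ℕ, ∃ n₀ : ℕ, ∀ n, n₀ ≤ n → ∀ F : MvPolynomial (Fin n) ℚ, F.IsHomogeneous d →
      ∃ (L : (Fin s → ℚ) →ₗ[ℚ] (Fin n → ℚ)) (c : Fin s → ℚ), Function.Injective L ∧
        ∀ t, eval (L t) F = ∑ j, c j * t j ^ d
  | 0 => ⟨0, fun n _ F hF => ⟨0, 0, Function.injective_of_subsingleton _, fun t => by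
      have := eval_smul_homogeneous hF 0 0
      rw [zero_smul, zero_pow hd.pos.ne', zero_mul] at this
      simp only [LinearMap.zero_apply, univ_eq_empty, sum_empty]
      exact this⟩⟩
  | s + 1 => by
    obtain ⟨M', hdiag⟩ := exists_diagonal hd hlow s
    obtain ⟨M, hM⟩ := exists_fintype_zeros (ι := {e : Fin d // Odd (e : ℕ)}) (fun e => (e : ℕ))
      (fun e => hlow _ e.2 e.1.2) M'
    obtain ⟨R, hR⟩ := exists_fintype_zeros
      (ι := {α : Fin M → Fin (d + 1) // Even (∑ a, (α a : ℕ)) ∧ 0 < ∑ a, (α a : ℕ) ∧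
        (∑ a, (α a : ℕ)) < d}) (fun α => d - ∑ a, (α.1 a : ℕ))
      (fun α => hlow _ (Nat.Odd.sub_even α.2.2.2.le hd α.2.1)
        (Nat.sub_lt (lt_of_le_of_lt (Nat.zero_le _) α.2.2.2) α.2.2.1)) 1
    refine ⟨M + R, fun n hn F hF => ?_⟩
    obtain ⟨r, rfl⟩ := Nat.exists_eq_add_of_le (show M ≤ n by omega)
    obtain ⟨e, he⟩ : ∃ e : Fin M ⊕ Fin r ≃ Fin (M + r), e = finSumFinEquiv := ⟨_, rfl⟩
    obtain ⟨G, hGdef⟩ : ∃ G, G = rename e.symm F := ⟨_, rfl⟩
    have hG : G.IsHomogeneous d := hGdef ▸ hF.rename_isHomogeneous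
    obtain ⟨h, hh, hbig, heval⟩ := exists_bidegree G hG
    -- the vector `w`
    obtain ⟨Lw, hLw, hzw⟩ := hR r (by omega) (fun α => h α.1) fun α => hh α.1
    obtain ⟨w, hwdef⟩ : ∃ w, w = Lw 1 := ⟨_, rfl⟩
    have hw : w ≠ 0 := fun e0 => one_ne_zero (hLw (by rw [← hwdef, e0, map_zero]))
    -- the subspace
    obtain ⟨A, hA, hzA⟩ := hM M le_rfl (fun e => bidegreePart h w (e : ℕ))
      fun e => isHomogeneous_bidegreePart h w _
    obtain ⟨B, c, hB, hdia⟩ := hdiag M' le_rfl (pullback (inlMap ∘ₗ A) G)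
      (isHomogeneous_pullback _ hG)
    refine ⟨glue e (A ∘ₗ B) w, Fin.cons (eval (Sum.elim 0 w) G) c,
      glue_injective e (show Function.Injective (A ∘ₗ B) from hA.comp hB) hw, fun t => ?_⟩
    have e1 : eval (glue e (A ∘ₗ B) w t) F =
        eval (Sum.elim (A (B (Fin.tail t))) (t 0 • w)) G := by
      rw [hGdef, eval_rename]
      rfl
    have hsplit := eval_split hd hG hh hbig heval (w := w)
      (fun α h1 h2 h3 => hwdef ▸ hzw ⟨α, h1, h2, h3⟩ 1) (LinearMap.range A)
      (fun e ho hlt u hu => by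
        obtain ⟨x, rfl⟩ := hu
        exact hzA ⟨⟨e, hlt⟩, ho⟩ x) (LinearMap.mem_range_self A (B (Fin.tail t))) (t 0)
    rw [e1, hsplit, Fin.sum_univ_succ]
    simp only [Fin.cons_zero, Fin.cons_succ]
    have h2 := hdia (Fin.tail t)
    rw [eval_pullback] at h2
    rw [show Sum.elim (A (B (Fin.tail t))) (0 : Fin r → ℚ) =
      (inlMap ∘ₗ A) (B (Fin.tail t)) from rfl,
      h2, add_comm, mul_comm]
    rfl

/-- Disjoint zeros of a diagonal form span a subspace of zeros. -/
def blockMap {m q : ℕ} (x : Fin m → Fin q → ℚ) : (Fin m → ℚ) →ₗ[ℚ] (Fin m × Fin q → ℚ) where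
  toFun t p := t p.1 * x p.1 p.2
  map_add' _ _ := funext fun _ => add_mul _ _ _
  map_smul' _ _ := funext fun _ => mul_assoc _ _ _

/-- **One form.** -/
theorem solvable_odd : ∀ d : ℕ, Odd d → Solvable d := by
  intro d
  induction d using Nat.strong_induction_on with
  | _ d ih =>
    intro hd m
    obtain ⟨q, hq⟩ : ∃ q, q = d * (d + 1) + 1 := ⟨_, rfl⟩
    obtain ⟨n₀, h⟩ := exists_diagonal hd (fun e he hlt => ih e hlt he)
      (Fintype.card (Fin m × Fin q))
    refine ⟨n₀, fun n hn F hF => ?_⟩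
    obtain ⟨L, c, hL, hdia⟩ := h n hn F hF
    obtain ⟨e, he⟩ : ∃ e : Fin m × Fin q ≃ Fin (Fintype.card (Fin m × Fin q)),
        e = Fintype.equivFin _ := ⟨_, rfl⟩
    choose x hx hz using fun j : Fin m => exists_diagonal_zero_rat (ι := Fin q) hd
      (by rw [Fintype.card_fin]; omega) fun i => c (e (j, i))
    have hinj : Function.Injective (blockMap x) := fun a b hab => funext fun j => ?_
    refine ⟨L ∘ₗ (LinearEquiv.funCongrLeft ℚ ℚ e.symm).toLinearMap ∘ₗ blockMap x,
      hL.comp ((LinearEquiv.funCongrLeft ℚ ℚ e.symm).injective.comp hinj), fun t => ?_⟩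
    rotate_left
    · obtain ⟨i, hi⟩ := Function.ne_iff.1 (hx j)
      exact mul_right_cancel₀ hi (congrFun hab (j, i))
    · rw [LinearMap.comp_apply, hdia, ← e.sum_comp, Fintype.sum_prod_type]
      refine sum_eq_zero fun j _ => ?_
      refine Eq.trans ?_ (mul_eq_zero_of_right (t j ^ d) (hz j))
      rw [mul_sum]
      refine sum_congr rfl fun i _ => ?_
      simp [blockMap, LinearEquiv.funCongrLeft_apply, mul_pow]
      ring

/-- **Birch's theorem.** -/
theorem exists_birch {r : ℕ} (d : Fin r → ℕ) (hd : ∀ i, Odd (d i)) (m : ℕ) :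
    ∃ n₀ : ℕ, ∀ n, n₀ ≤ n → ∀ F : Fin r → MvPolynomial (Fin n) ℚ,
      (∀ i, (F i).IsHomogeneous (d i)) →
        ∃ W : Submodule ℚ (Fin n → ℚ), Module.finrank ℚ W = m ∧
          ∀ x ∈ W, ∀ i, eval x (F i) = 0 := by
  obtain ⟨n₀, h⟩ := exists_family_zeros r d (fun i => solvable_odd _ (hd i)) m
  refine ⟨n₀, fun n hn F hF => ?_⟩
  obtain ⟨L, hL, hz⟩ := h n hn F hF
  refine ⟨LinearMap.range L, ?_, fun x hx i => ?_⟩
  · rw [LinearMap.finrank_range_of_inj hL, Module.finrank_fin_fun]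
  · obtain ⟨t, rfl⟩ := hx
    exact hz i t

end FA.BirchForms
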