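import Fermat.Agent.WaringAsymptotic.Positivity

/-!
# The major arcs with coefficients

For `a ≠ 0` the sum `∑_{|a| x ^ k ≤ N} e (α a x ^ k)` is near `r / q` the product of
`S (q, a r) / q`, `|a| ^ (-1/k)` and the sum of `weight (1/k) m e (± β m)` over `m ≤ N`. So an equation
`∑ c i x i ^ k = 0` has the weights of Waring's problem and, instead of `S (q, r) ^ s`, the product
of the `S (q, c i r)`, whose bound loses at most `∏ |c i|`.
-/

set_option autoImplicit false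

noncomputable section

namespace FA.BirchForms

open Finset FA.ThreePrimes FA.WaringAsymptotic
open scoped Real ComplexConjugate

/-- `∏ S (q, c i r) / q`. -/
def factor (k q : ℕ) {s : ℕ} (c : Fin s → ℤ) (r : ℕ) : ℂ :=
  ∏ i, densityFactor k q (c i * r)

/-- The term of the singular series. -/
def term (k : ℕ) {s : ℕ} (c : Fin s → ℤ) (q : ℕ) : ℂ := ∑ r ∈ unitResidues q, factor k q c r

theorem term_zero (k : ℕ) {s : ℕ} (c : Fin s → ℤ) : term k c 0 = 0 := by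
  simp [term, unitResidues]

theorem term_one (k : ℕ) {s : ℕ} (c : Fin s → ℤ) : term k c 1 = 1 := by
  simp [term, factor, unitResidues, densityFactor, completeSum]

theorem waringSum_neg (k P : ℕ) (x : ℝ) : waringSum k P (-x) = conj (waringSum k P x) := by
  simp only [waringSum, map_sum, conj_eAdd, neg_mul]

theorem weightSum_neg (e : ℝ) (N : ℕ) (x : ℝ) : weightSum e N (-x) = conj (weightSum e N x) := by
  simp only [weightSum, map_sum, map_mul, Complex.conj_ofReal, conj_eAdd, mul_neg]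

theorem densityFactor_neg (k q : ℕ) (a : ℤ) :
    densityFactor k q (-a) = conj (densityFactor k q a) := by
  simp only [densityFactor, completeSum, map_div₀, map_sum, conj_eAdd, map_natCast]
  push_cast
  simp only [neg_mul, neg_div]

/-- **The complete sums with a coefficient.** -/
theorem exists_densityFactor_mul_le {k : ℕ} (hk : 2 ≤ k) {e : ℝ} (he0 : 0 ≤ e)
    (he : (k : ℝ) * e ≤ 1) (he' : e ≤ 2 / 5) : ∃ C : ℝ, 1 ≤ C ∧ ∀ (q r a : ℕ), 0 < a →
      r ∈ unitResidues q → ‖densityFactor k q ((a : ℤ) * r)‖ ≤ C * a * (q : ℝ) ^ (-e) := by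
  obtain ⟨C, hC, h⟩ := exists_completeSum_le_of hk he0 he he'
  refine ⟨C, hC, fun q r a ha hr => ?_⟩
  rw [unitResidues, mem_filter, mem_range] at hr
  obtain ⟨g, a', q', hg, hco, rfl, rfl⟩ := Nat.exists_coprime'
    (show 0 < Nat.gcd a q from Nat.gcd_pos_of_pos_left q ha)
  have hq' : 0 < q' := Nat.pos_of_mul_pos_right (show 0 < q' * g by omega)
  have ha' : 1 ≤ a' := Nat.pos_of_mul_pos_right ha
  have hu : IsUnit (((a' : ℤ) * r : ℤ) : ZMod q') := by
    push_cast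
    exact ((ZMod.isUnit_iff_coprime a' q').2 hco).mul ((ZMod.isUnit_iff_coprime r q').2
      (hr.2.coprime_dvd_left (dvd_mul_right q' g)).symm)
  have e1 : densityFactor k (q' * g) (((a' * g : ℕ) : ℤ) * r) =
      completeSum k q' ((a' : ℤ) * r) / q' := by
    rw [densityFactor, mul_comm q' g, show ((a' * g : ℕ) : ℤ) * r = (g : ℤ) * ((a' : ℤ) * r) by
      push_cast; ring, completeSum_mul_left hg hq', Nat.cast_mul, mul_div_mul_left _ _
        (Nat.cast_ne_zero.2 hg.ne')]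
  have hq0 : (0 : ℝ) < q' := Nat.cast_pos.2 hq'
  have hg1 : (1 : ℝ) ≤ g := by exact_mod_cast hg
  have ha1 : (g : ℝ) ≤ ((a' * g : ℕ) : ℝ) :=
    Nat.cast_le.2 (Nat.le_mul_of_pos_left g ha')
  rw [e1, norm_div, Complex.norm_natCast, div_le_iff₀ hq0]
  refine (h q' _ hq' hu).trans ?_
  rw [Nat.cast_mul q' g, Real.mul_rpow hq0.le (by linarith), sub_eq_add_neg, Real.rpow_add hq0,
    Real.rpow_one]
  have h2 : 1 ≤ ((a' * g : ℕ) : ℝ) * (g : ℝ) ^ (-e) := by
    refine le_trans (le_of_eq (Real.rpow_zero (g : ℝ)).symm) ?_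
    refine le_trans ?_ (mul_le_mul_of_nonneg_right ha1 (by positivity))
    rw [mul_comm, ← Real.rpow_add_one (by linarith)]
    exact Real.rpow_le_rpow_of_exponent_le hg1 (by linarith)
  refine le_trans (le_mul_of_one_le_right (by positivity) h2) (le_of_eq ?_)
  ring

/-- **The terms are `O (q ^ -(7/5))`** for `s ≥ 3 k`. -/
theorem exists_term_le {k s : ℕ} (hk : 2 ≤ k) (hs : 3 * k ≤ s) {c : Fin s → ℤ}
    (hc : ∀ i, c i ≠ 0) : ∃ C : ℝ, 1 ≤ C ∧ ∀ q : ℕ,
      (∑ r ∈ unitResidues q, ‖factor k q c r‖ ≤ C * (q : ℝ) ^ (-(7 / 5) : ℝ)) ∧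
      ‖term k c q‖ ≤ C * (q : ℝ) ^ (-(7 / 5) : ℝ) := by
  have hk2 : (2 : ℝ) ≤ k := by exact_mod_cast hk
  have hs' : 3 * (k : ℝ) ≤ s := by exact_mod_cast hs
  obtain ⟨e, he0, he, he', hse⟩ : ∃ e : ℝ, 0 ≤ e ∧ (k : ℝ) * e ≤ 1 ∧ e ≤ 2 / 5 ∧
      12 / 5 ≤ e * s := by
    refine ⟨4 / (5 * k), by positivity, ?_, ?_, ?_⟩
    · rw [mul_div_assoc', div_le_one (by positivity)]; linarith
    · rw [div_le_div_iff₀ (by positivity) (by norm_num)]; linarith
    · rw [div_mul_eq_mul_div, div_le_div_iff₀ (by norm_num) (by positivity)]; linarith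
  obtain ⟨C, hC, h⟩ := exists_densityFactor_mul_le hk he0 he he'
  obtain ⟨B, hB⟩ : ∃ B, B = ∏ i, C * ((c i).natAbs : ℝ) := ⟨_, rfl⟩
  have hB1 : 1 ≤ B := by
    rw [hB]
    refine one_le_prod fun i _ => one_le_mul_of_one_le_of_one_le hC ?_
    exact_mod_cast Int.natAbs_pos.2 (hc i)
  refine ⟨B, hB1, fun q => ?_⟩
  have key : ∑ r ∈ unitResidues q, ‖factor k q c r‖ ≤ B * (q : ℝ) ^ (-(7 / 5) : ℝ) := by
    rcases Nat.eq_zero_or_pos q with rfl | hq
    · simp [unitResidues]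
    have hq1 : (1 : ℝ) ≤ q := by exact_mod_cast hq
    refine (sum_le_card_nsmul _ _ (B * (q : ℝ) ^ (-(12 / 5) : ℝ)) fun r hr => ?_).trans ?_
    · rw [factor, norm_prod]
      refine (prod_le_prod (fun i _ => norm_nonneg _) fun i _ =>
        (?_ : _ ≤ C * ((c i).natAbs : ℝ) * (q : ℝ) ^ (-e))).trans ?_
      · have h' := h q r (c i).natAbs (Int.natAbs_pos.2 (hc i)) hr
        rcases Int.natAbs_eq (c i) with e' | e'
        · rwa [← e'] at h'
        · rw [show c i * (r : ℤ) = -(((c i).natAbs : ℤ) * r) by rw [← neg_mul, ← e'],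
            densityFactor_neg, Complex.norm_conj]
          exact h'
      rw [prod_mul_distrib, ← hB, prod_const, card_univ, Fintype.card_fin,
        ← Real.rpow_natCast ((q : ℝ) ^ _) s, ← Real.rpow_mul (by linarith)]
      exact mul_le_mul_of_nonneg_left (Real.rpow_le_rpow_of_exponent_le hq1 (by linarith))
        (by linarith)
    · rw [card_unitResidues, nsmul_eq_mul]
      refine (mul_le_mul_of_nonneg_right (Nat.cast_le.2 (Nat.totient_le q))
        (by positivity)).trans (le_of_eq ?_)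
      rw [show (-(7 / 5) : ℝ) = -(12 / 5) + 1 by norm_num, Real.rpow_add_one (by linarith)]
      ring
  exact ⟨key, (norm_sum_le _ _).trans key⟩

/-- **The tail of the singular series.** -/
theorem exists_term_tail {k s : ℕ} (hk : 2 ≤ k) (hs : 3 * k ≤ s) {c : Fin s → ℤ}
    (hc : ∀ i, c i ≠ 0) : ∃ C : ℝ, 0 < C ∧ ∀ Q : ℕ, Summable (term k c) ∧
      ‖∑ q ∈ Icc 1 Q, term k c q - ∑' q, term k c q‖ ≤
        C * ((Q + 1 : ℕ) : ℝ) ^ (-(1 / 5) : ℝ) := by
  obtain ⟨C, hC, h⟩ := exists_term_le hk hs hc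
  have hsum : Summable fun q : ℕ => (q : ℝ) ^ (-(6 / 5) : ℝ) :=
    Real.summable_nat_rpow.2 (by norm_num)
  obtain ⟨Z, hZ⟩ : ∃ Z, Z = ∑' q : ℕ, (q : ℝ) ^ (-(6 / 5) : ℝ) := ⟨_, rfl⟩
  have hZ0 : 0 ≤ Z := hZ ▸ tsum_nonneg fun q => by positivity
  refine ⟨C * Z + 1, by positivity, fun Q => ?_⟩
  have hs1 : Summable (term k c) := by
    refine Summable.of_norm_bounded (hsum.mul_left C) fun q => ?_
    rcases Nat.eq_zero_or_pos q with rfl | hq
    · simp [term_zero]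
    refine (h q).2.trans (mul_le_mul_of_nonneg_left ?_ (by linarith))
    exact Real.rpow_le_rpow_of_exponent_le (by exact_mod_cast hq) (by norm_num)
  refine ⟨hs1, ?_⟩
  have e : ∑ q ∈ Icc 1 Q, term k c q = ∑ q ∈ range (Q + 1), term k c q := by
    refine sum_subset (fun q hq => mem_range.2 (by rw [mem_Icc] at hq; omega)) fun q hq hq' => ?_
    rw [mem_range] at hq
    rw [mem_Icc] at hq'
    rw [show q = 0 by omega, term_zero]
  rw [e, ← hs1.sum_add_tsum_nat_add (Q + 1), sub_add_cancel_left, norm_neg]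
  obtain ⟨T, hT⟩ : ∃ T : ℝ, T = ((Q + 1 : ℕ) : ℝ) := ⟨_, rfl⟩
  rw [← hT]
  have hT1 : 1 ≤ T := hT ▸ by exact_mod_cast Nat.le_add_left 1 Q
  have hsh : Summable fun i : ℕ => T ^ (-(1 / 5) : ℝ) *
      (C * ((i + (Q + 1) : ℕ) : ℝ) ^ (-(6 / 5) : ℝ)) :=
    (((summable_nat_add_iff (f := fun q : ℕ => (q : ℝ) ^ (-(6 / 5) : ℝ)) (Q + 1)).2
      hsum).mul_left C).mul_left _
  refine (tsum_of_norm_bounded hsh.hasSum fun i => ?_).trans ?_
  · refine (h (i + (Q + 1))).2.trans ?_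
    have hi : T ≤ ((i + (Q + 1) : ℕ) : ℝ) := hT ▸ Nat.cast_le.2 (Nat.le_add_left _ _)
    rw [mul_left_comm]
    refine mul_le_mul_of_nonneg_left ?_ (by linarith)
    rw [show (-(7 / 5) : ℝ) = -(1 / 5) + -(6 / 5) by norm_num, Real.rpow_add (by linarith)]
    exact mul_le_mul_of_nonneg_right
      (Real.rpow_le_rpow_of_nonpos (by linarith) hi (by norm_num)) (by positivity)
  · rw [tsum_mul_left, tsum_mul_left, mul_comm (C * Z + 1)]
    refine mul_le_mul_of_nonneg_left ?_ (by positivity)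
    have := hsum.sum_add_tsum_nat_add (Q + 1)
    have : 0 ≤ ∑ q ∈ range (Q + 1), (q : ℝ) ^ (-(6 / 5) : ℝ) :=
      sum_nonneg fun q _ => by positivity
    have := mul_le_mul_of_nonneg_left (show
        ∑' i : ℕ, ((i + (Q + 1) : ℕ) : ℝ) ^ (-(6 / 5) : ℝ) ≤ Z by
      linarith) (zero_le_one.trans hC)
    linarith

/-- **The weights at another scale.** -/
theorem norm_weightSum_dilate_le {e : ℝ} (he : 0 < e) (he1 : e ≤ 1) {a : ℕ} (ha : 0 < a)
    (N : ℕ) (β : ℝ) :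
    ‖weightSum e (N / a) ((a : ℝ) * β) - (((a : ℝ) ^ (-e) : ℝ) : ℂ) * weightSum e N β‖ ≤
      3 * (1 + 2 * π * |β| * N) := by
  obtain ⟨κ, hκ⟩ : ∃ κ : ℝ, κ = (a : ℝ) ^ (-e) := ⟨_, rfl⟩
  obtain ⟨u, hu⟩ : ∃ u : ℕ → ℂ, u = fun n => if a ∣ n then (weight e (n / a) : ℂ) else 0 :=
    ⟨_, rfl⟩
  have hpart : ∀ (j : ℕ) (g : ℕ → ℂ), ∑ n ∈ Ioc 0 j, u n * g n =
      ∑ m ∈ Ioc 0 (j / a), (weight e m : ℂ) * g (a * m) := fun j g => by
    simp only [hu, ite_mul, zero_mul]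
    rw [← sum_filter]
    refine sum_nbij' (fun n => n / a) (fun m => a * m) (fun n hn => ?_) (fun m hm => ?_)
      (fun n hn => Nat.mul_div_cancel' (mem_filter.1 hn).2)
      (fun m _ => Nat.mul_div_cancel_left m ha) fun n hn => ?_
    · obtain ⟨hn1, hn2⟩ := mem_filter.1 hn
      rw [mem_Ioc] at hn1 ⊢
      exact ⟨Nat.div_pos (Nat.le_of_dvd hn1.1 hn2) ha, Nat.div_le_div_right hn1.2⟩
    · rw [mem_Ioc] at hm
      rw [mem_filter, mem_Ioc]
      exact ⟨⟨Nat.mul_pos ha hm.1, (mul_comm a m).le.trans ((Nat.le_div_iff_mul_le ha).1 hm.2)⟩,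
        dvd_mul_right a m⟩
    · rw [Nat.mul_div_cancel' (mem_filter.1 hn).2]
  have hS : weightSum e (N / a) ((a : ℝ) * β) - (κ : ℂ) * weightSum e N β =
      ∑ n ∈ Ioc 0 N, (u n - (κ : ℂ) * weight e n) * eAdd (n * β) := by
    simp only [sub_mul, sum_sub_distrib, weightSum, mul_sum, mul_assoc]
    congr 1
    rw [hpart N fun n => eAdd (n * β)]
    refine sum_congr rfl fun m _ => ?_
    push_cast
    ring_nf
  rw [← hκ, hS]
  refine norm_sum_mul_eAdd_le _ β N fun j _ => ?_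
  have h0 := hpart j fun _ => 1
  simp only [mul_one] at h0
  rw [sum_sub_distrib, ← mul_sum, h0, ← Complex.ofReal_sum, ← Complex.ofReal_sum,
    ← Complex.ofReal_mul, ← Complex.ofReal_sub, Complex.norm_real, Real.norm_eq_abs]
  obtain ⟨h1, h2⟩ := abs_sum_weight_sub_le he he1 (j / a)
  obtain ⟨h3, h4⟩ := abs_sum_weight_sub_le he he1 j
  have ha1 : (1 : ℝ) ≤ a := by exact_mod_cast ha
  have hκ1 : κ ≤ 1 := hκ ▸ Real.rpow_le_one_of_one_le_of_nonpos ha1 (by linarith)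
  have hκ0 : 0 ≤ κ := hκ ▸ by positivity
  have h5 := mul_le_mul_of_nonneg_left h3 hκ0
  have h6 := mul_le_mul_of_nonneg_left h4 hκ0
  have hj : (j : ℝ) = ((j % a : ℕ) : ℝ) + a * ((j / a : ℕ) : ℝ) := by
    exact_mod_cast (Nat.mod_add_div j a).symm
  have hmod : ((j % a : ℕ) : ℝ) ≤ a := by exact_mod_cast (Nat.mod_lt j ha).le
  have h7 : κ * (j : ℝ) ^ e = ((j : ℝ) / a) ^ e := by
    rw [hκ, Real.rpow_neg (by linarith), Real.div_rpow (Nat.cast_nonneg _) (by linarith),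
      inv_mul_eq_div]
  have h8 : ((j / a : ℕ) : ℝ) ^ e ≤ ((j : ℝ) / a) ^ e :=
    Real.rpow_le_rpow (Nat.cast_nonneg _) Nat.cast_div_le he.le
  have h9 : ((j : ℝ) / a) ^ e ≤ ((j / a : ℕ) : ℝ) ^ e + 1 := by
    refine le_trans (Real.rpow_le_rpow (by positivity) (?_ : (j : ℝ) / a ≤
      ((j / a : ℕ) : ℝ) + 1) he.le) ((Real.rpow_add_le_add_rpow (Nat.cast_nonneg _) zero_le_one
        he.le he1).trans (by rw [Real.one_rpow]))
    rw [div_le_iff₀ (by linarith)]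
    linarith
  rw [abs_le]
  constructor <;> linarith

/-- **The approximation with a coefficient.** -/
theorem norm_waringSum_mul_sub_le {k N q a : ℕ} (hk : 1 ≤ k) (ha : 0 < a) (haN : a ≤ N)
    (hq : 0 < q) (r : ℕ) (β : ℝ) :
    ‖waringSum k (rootFloor k (N / a)) ((a : ℝ) * ((r : ℝ) / q + β)) -
        densityFactor k q ((a : ℤ) * r) * ((((a : ℝ) ^ (-(1 / (k : ℝ))) : ℝ) : ℂ) *
          weightSum (1 / (k : ℝ)) N β)‖ ≤
      11 * q * (1 + 2 * π * |β| * N) := by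
  have hk0 : (0 : ℝ) < k := by exact_mod_cast hk
  have hk1 : 1 / (k : ℝ) ≤ 1 := by rw [div_le_one hk0]; exact_mod_cast hk
  have hq1 : (1 : ℝ) ≤ q := by exact_mod_cast hq
  have h := norm_waringSum_sub_le hk (Nat.div_pos haN ha) hq ((a : ℤ) * r) ((a : ℝ) * β)
  rw [show (((a : ℤ) * r : ℤ) : ℝ) / q + (a : ℝ) * β = (a : ℝ) * ((r : ℝ) / q + β) by
    push_cast; ring] at h
  have hd := norm_weightSum_dilate_le (e := 1 / (k : ℝ)) (by positivity) hk1 ha N β
  refine (norm_sub_le_norm_sub_add_norm_sub _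
    (densityFactor k q ((a : ℤ) * r) * weightSum (1 / (k : ℝ)) (N / a) ((a : ℝ) * β)) _).trans ?_
  have h1 : 8 * (q : ℝ) * (1 + 2 * π * |(a : ℝ) * β| * ((N / a : ℕ) : ℝ)) ≤
      8 * q * (1 + 2 * π * |β| * N) := by
    refine mul_le_mul_of_nonneg_left (add_le_add le_rfl ?_) (by positivity)
    have hdiv : (a : ℝ) * ((N / a : ℕ) : ℝ) ≤ N := by exact_mod_cast Nat.mul_div_le N a
    rw [abs_mul, Nat.abs_cast]
    calc 2 * π * ((a : ℝ) * |β|) * ((N / a : ℕ) : ℝ)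
        = 2 * π * |β| * ((a : ℝ) * ((N / a : ℕ) : ℝ)) := by ring
      _ ≤ _ := mul_le_mul_of_nonneg_left hdiv (by positivity)
  refine (add_le_add (h.trans h1) (?_ : _ ≤ 3 * q * (1 + 2 * π * |β| * N))).trans (le_of_eq
    (by ring))
  rw [← mul_sub, norm_mul]
  refine (mul_le_of_le_one_left (norm_nonneg _) (norm_densityFactor_le_one _ _ _)).trans
    (hd.trans ?_)
  exact mul_le_mul_of_nonneg_right (by linarith) (by positivity)

/-- The same for either sign. -/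
theorem norm_waringSum_int_sub_le {k N q : ℕ} {a : ℤ} (hk : 1 ≤ k) (ha : a ≠ 0) (haN : a.natAbs ≤ N)
    (hq : 0 < q) (r : ℕ) (β : ℝ) :
    ‖waringSum k (rootFloor k (N / a.natAbs)) ((a : ℝ) * ((r : ℝ) / q + β)) -
        densityFactor k q (a * r) * ((((a.natAbs : ℝ) ^ (-(1 / (k : ℝ))) : ℝ) : ℂ) *
          weightSum (1 / (k : ℝ)) N ((a.sign : ℝ) * β))‖ ≤
      11 * q * (1 + 2 * π * |β| * N) := by
  have h := norm_waringSum_mul_sub_le hk (Int.natAbs_pos.2 ha) haN hq r β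
  rcases Int.natAbs_eq a with e | e
  · rw [Int.sign_eq_one_of_pos (by omega), Int.cast_one, one_mul]
    rw [← e] at h
    rwa [show (a : ℝ) = ((a.natAbs : ℤ) : ℝ) by rw [← e], Int.cast_natCast]
  · rw [Int.sign_eq_neg_one_of_neg (by omega), show a * (r : ℤ) = -((a.natAbs : ℤ) * r) by
      rw [← neg_mul, ← e], show (a : ℝ) * ((r : ℝ) / q + β) =
      -((a.natAbs : ℝ) * ((r : ℝ) / q + β)) by
        rw [← neg_mul]; congr 1; exact_mod_cast e, waringSum_neg, densityFactor_neg, Int.cast_neg,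
      Int.cast_one, neg_one_mul, weightSum_neg, ← Complex.conj_ofReal, ← map_mul, ← map_mul,
      ← map_sub, Complex.norm_conj]
    exact h

theorem norm_prod_sub_prod_le {R E : ℝ} : ∀ (n : ℕ) (x y : Fin (n + 1) → ℂ),
    (∀ i, ‖x i‖ ≤ R) → (∀ i, ‖y i‖ ≤ R) → (∀ i, ‖x i - y i‖ ≤ E) →
      ‖∏ i, x i - ∏ i, y i‖ ≤ ((n + 1 : ℕ) : ℝ) * R ^ n * E
  | 0, x, y, _, _, h => by simpa using h 0
  | n + 1, x, y, hx, hy, h => by
    have hR : 0 ≤ R := (norm_nonneg _).trans (hx 0)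
    have hE : 0 ≤ E := (norm_nonneg _).trans (h 0)
    have ih := norm_prod_sub_prod_le n (fun i => x i.succ) (fun i => y i.succ)
      (fun i => hx i.succ) (fun i => hy i.succ) fun i => h i.succ
    have hy' : ‖∏ i : Fin (n + 1), y i.succ‖ ≤ R ^ (n + 1) := by
      rw [norm_prod]
      exact (prod_le_prod (fun i _ => norm_nonneg _) fun i _ => hy i.succ).trans
        (le_of_eq (by simp))
    rw [Fin.prod_univ_succ x, Fin.prod_univ_succ y, show x 0 * ∏ i : Fin (n + 1), x i.succ -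
      y 0 * ∏ i : Fin (n + 1), y i.succ = x 0 * (∏ i : Fin (n + 1), x i.succ -
        ∏ i : Fin (n + 1), y i.succ) + (x 0 - y 0) * ∏ i : Fin (n + 1), y i.succ by ring]
    refine (norm_add_le _ _).trans ?_
    rw [norm_mul, norm_mul]
    refine (add_le_add (mul_le_mul (hx 0) ih (norm_nonneg _) hR)
      (mul_le_mul (h 0) hy' (norm_nonneg _) hE)).trans (le_of_eq ?_)
    push_cast
    ring

end FA.BirchForms
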