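import Fermat.Agent.BirchForms.Major
import Fermat.Agent.WaringAsymptotic.WeylMeanValue
import Mathlib.RingTheory.ZMod.UnitsCyclic

/-!
# The singular series with coefficients

A local pattern at `p` is a zero of `∑ c i x i ^ k` modulo a power of `p` to which Hensel's lemma
applies. Primitive zeros modulo all powers of `p` give one; for odd `k` and more than `k ^ 2`
coefficients there is one, as two coefficients differ, in valuation and unit part, by a `k`-th power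
modulo `p ^ (2 v_p k + 1)`. With a pattern at every prime the singular series is positive.
-/

set_option autoImplicit false

noncomputable section

namespace FA.BirchForms

open Finset FA.ThreePrimes FA.WaringAsymptotic Filter Topology

/-- The units modulo `p ^ (2 v_p k + 1)` have at most `k` classes modulo `k`-th powers. -/
theorem index_powRange_le {p k : ℕ} (hp : p.Prime) (hk : Odd k) :
    (powMonoidHom k : (ZMod (p ^ (2 * padicValNat p k + 1)))ˣ →*
      (ZMod (p ^ (2 * padicValNat p k + 1)))ˣ).range.index ≤ k := by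
  have : NeZero (p ^ (2 * padicValNat p k + 1)) := ⟨pow_ne_zero _ hp.ne_zero⟩
  have : IsCyclic (ZMod (p ^ (2 * padicValNat p k + 1)))ˣ := by
    rcases eq_or_ne p 2 with rfl | hp2
    · rw [padicValNat.eq_zero_of_not_dvd hk.not_two_dvd_nat, mul_zero, zero_add, pow_one]
      infer_instance
    · exact ZMod.isCyclic_units_of_prime_pow p hp hp2 _
  rw [IsCyclic.index_powMonoidHom_range]
  exact Nat.le_of_dvd hk.pos (Nat.gcd_dvd_right _ _)

theorem exists_val_unit {p : ℕ} (hp : p.Prime) {c : ℤ} (hc : c ≠ 0) : ∃ (v : ℕ) (u : ℤ),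
    c = (p : ℤ) ^ v * u ∧ ¬(p : ℤ) ∣ u ∧ v ≤ c.natAbs := by
  obtain ⟨v, u, hu, hvu⟩ :=
    Nat.exists_eq_pow_mul_and_not_dvd (n := c.natAbs) (Int.natAbs_pos.2 hc).ne' p hp.ne_one
  have hv : v ≤ c.natAbs := by
    rw [hvu]
    exact (Nat.lt_pow_self hp.one_lt).le.trans (Nat.le_mul_of_pos_right _
      (Nat.pos_of_ne_zero fun e => hu (e ▸ dvd_zero p)))
  refine ⟨v, c.sign * u, ?_, fun h => ?_, hv⟩
  · conv_lhs => rw [← Int.sign_mul_natAbs c, hvu]
    push_cast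
    ring
  · rw [← Int.natAbs_dvd_natAbs, Int.natAbs_natCast, Int.natAbs_mul, Int.natAbs_sign_of_ne_zero hc,
      one_mul, Int.natAbs_natCast] at h
    exact hu h

theorem isUnit_primePow {p : ℕ} (hp : p.Prime) {u : ℤ} (hu : ¬(p : ℤ) ∣ u) (L : ℕ) :
    IsUnit (u : ZMod (p ^ L)) := by
  rw [ZMod.coe_int_isUnit_iff_isCoprime]
  push_cast
  exact ((Nat.prime_iff_prime_int.1 hp).coprime_iff_not_dvd.2 hu).pow_left

/-- A zero modulo `p ^ (v + 2 v_p k + 1)` with a coordinate prime to `p` whose coefficient has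
valuation `v`. -/
def LocalPattern (k : ℕ) {s : ℕ} (c : Fin s → ℤ) (p : ℕ) : Prop :=
  ∃ (y : Fin s → ℕ) (i₀ : Fin s) (v : ℕ) (u : ℤ), c i₀ = (p : ℤ) ^ v * u ∧ ¬(p : ℤ) ∣ u ∧
    ¬p ∣ y i₀ ∧ (p : ℤ) ^ (v + (2 * padicValNat p k + 1)) ∣ ∑ i, c i * (y i : ℤ) ^ k

/-- **Primitive zeros modulo every power of `p` give a pattern.** -/
theorem LocalPattern.of_primitive {k s p : ℕ} (hp : p.Prime) {c : Fin s → ℤ} (hc : ∀ i, c i ≠ 0)
    (h : ∀ j : ℕ, ∃ y : Fin s → ℤ, (∃ i, ¬(p : ℤ) ∣ y i) ∧ (p : ℤ) ^ j ∣ ∑ i, c i * y i ^ k) :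
    LocalPattern k c p := by
  obtain ⟨j, hj⟩ : ∃ j, j = ∑ i, (c i).natAbs + (2 * padicValNat p k + 1) := ⟨_, rfl⟩
  obtain ⟨y, ⟨i₀, hi₀⟩, hdvd⟩ := h j
  obtain ⟨v, u, hvu, hu, hv⟩ := exists_val_unit hp (hc i₀)
  have : NeZero (p ^ j) := ⟨pow_ne_zero _ hp.ne_zero⟩
  obtain ⟨w, hw⟩ : ∃ w : Fin s → ℕ, w = fun i => (y i : ZMod (p ^ j)).val := ⟨_, rfl⟩
  have hwy : ∀ i, ((w i : ℤ) : ZMod (p ^ j)) = (y i : ZMod (p ^ j)) := fun i => by
    rw [hw, Int.cast_natCast, ZMod.natCast_zmod_val]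
  refine ⟨w, i₀, v, u, hvu, hu, fun hd => hi₀ ?_, (pow_dvd_pow _ ?_).trans ?_ (b := (p : ℤ) ^ j)⟩
  · have h1 : ((p ^ j : ℕ) : ℤ) ∣ (w i₀ : ℤ) - y i₀ := by
      rw [← ZMod.intCast_zmod_eq_zero_iff_dvd, Int.cast_sub, hwy, sub_self]
    have h2 := dvd_sub (Int.natCast_dvd_natCast.2 hd)
      ((Int.natCast_dvd_natCast.2 (dvd_pow_self p (by omega : j ≠ 0))).trans h1)
    rwa [sub_sub_cancel] at h2
  · have := single_le_sum (f := fun i => (c i).natAbs) (fun i _ => Nat.zero_le _) (mem_univ i₀)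
    omega
  · rw [← Int.natCast_pow, ← ZMod.intCast_zmod_eq_zero_iff_dvd] at hdvd ⊢
    push_cast at hdvd ⊢
    simp only [Int.cast_natCast] at hwy
    simpa only [hwy] using hdvd

/-- **Odd degree**: two coefficients in one class. -/
theorem LocalPattern.of_odd {k L p : ℕ} (hp : p.Prime) (hk : Odd k) (hL : k * k < L)
    {c : Fin L → ℤ} (hc : ∀ i, c i ≠ 0) : LocalPattern k c p := by
  classical
  obtain ⟨γ, hγ⟩ : ∃ γ, γ = 2 * padicValNat p k + 1 := ⟨_, rfl⟩
  have hidx := index_powRange_le hp hk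
  rw [← hγ] at hidx
  have : NeZero (p ^ γ) := ⟨pow_ne_zero _ hp.ne_zero⟩
  choose v u hvu hu _ using fun i => exists_val_unit hp (hc i)
  obtain ⟨U, hU⟩ : ∃ U : Fin L → (ZMod (p ^ γ))ˣ,
      U = fun i => (isUnit_primePow hp (hu i) γ).unit := ⟨_, rfl⟩
  obtain ⟨H, hH⟩ : ∃ H, H = (powMonoidHom k : (ZMod (p ^ γ))ˣ →* (ZMod (p ^ γ))ˣ).range :=
    ⟨_, rfl⟩
  rw [← hH] at hidx
  obtain ⟨f, hf⟩ : ∃ f : Fin L → Fin k × ((ZMod (p ^ γ))ˣ ⧸ H),
      f = fun i => (⟨v i % k, Nat.mod_lt _ hk.pos⟩, QuotientGroup.mk (U i)) := ⟨_, rfl⟩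
  have hninj : ¬Function.Injective f := fun hinj => by
    have h := Nat.card_le_card_of_injective f hinj
    rw [Nat.card_prod, Nat.card_fin, Nat.card_fin, ← Subgroup.index_eq_card] at h
    exact absurd (h.trans (Nat.mul_le_mul_left k hidx)) (not_le.2 hL)
  rw [Function.Injective] at hninj
  push Not at hninj
  obtain ⟨i, j, hij, hne⟩ := hninj
  wlog hle : v i ≤ v j generalizing i j
  · exact this j i hij.symm hne.symm (le_of_not_ge hle)
  rw [hf, Prod.mk.injEq, Fin.mk.injEq, QuotientGroup.eq, hH] at hij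
  obtain ⟨g, hg⟩ := hij.2
  obtain ⟨m, hm⟩ : k ∣ v j - v i := (Nat.modEq_iff_dvd' hle).1 hij.1
  obtain ⟨a, ha⟩ : ∃ a : ℕ, a = (-(g : ZMod (p ^ γ))).val := ⟨_, rfl⟩
  refine ⟨fun l => if l = i then p ^ m * a else if l = j then 1 else 0, j, v j, u j, hvu j, hu j,
    ?_, ?_⟩
  · simp only [if_neg hne.symm, if_true]
    exact hp.not_dvd_one
  rw [sum_eq_add i j hne (fun l _ hl => by simp [hl.1, hl.2, zero_pow hk.pos.ne'])
    (fun h => absurd (mem_univ i) h) fun h => absurd (mem_univ j) h]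
  simp only [if_neg hne.symm, if_true, Nat.cast_mul, Nat.cast_pow, Nat.cast_one, one_pow, mul_one]
  rw [hvu i, hvu j, show (p : ℤ) ^ v i * u i * ((p : ℤ) ^ m * (a : ℤ)) ^ k + (p : ℤ) ^ v j * u j =
    (p : ℤ) ^ v j * (u i * (a : ℤ) ^ k + u j) by
      rw [show v j = v i + m * k by rw [mul_comm] at hm; omega, pow_add, pow_mul]; ring, pow_add,
    ← hγ]
  refine mul_dvd_mul_left _ ?_
  rw [← Int.natCast_pow p γ, ← ZMod.intCast_zmod_eq_zero_iff_dvd]
  have hg' : (g : ZMod (p ^ γ)) ^ k * (u i : ZMod (p ^ γ)) = (u j : ZMod (p ^ γ)) := by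
    have e := congrArg (fun x => (x * U i : (ZMod (p ^ γ))ˣ)) hg
    simp only [powMonoidHom_apply, inv_mul_cancel_comm, hU] at e
    have e' := congrArg Units.val e
    simpa using e'
  push_cast
  rw [ha, ZMod.natCast_zmod_val, hk.neg_pow]
  linear_combination -hg'

/-- Solutions of `∑ c i x i ^ k ≡ 0` modulo `q`. -/
def coefCount (k : ℕ) {s : ℕ} (c : Fin s → ℤ) (q : ℕ) : ℕ :=
  ((Fintype.piFinset fun _ : Fin s => range q).filter
    fun z => (q : ℤ) ∣ ∑ i, c i * (z i : ℤ) ^ k).card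

/-- The sum over all residues. -/
def coefResidueSum (k : ℕ) {s : ℕ} (c : Fin s → ℤ) (q : ℕ) : ℂ := ∑ a ∈ range q, factor k q c a

theorem coefResidueSum_eq {k s q : ℕ} (c : Fin s → ℤ) (hq : 0 < q) :
    coefResidueSum k c q = (q : ℂ) * (coefCount k c q : ℂ) / (q : ℂ) ^ s := by
  have e : ∀ a ∈ range q, factor k q c a =
      (∑ z ∈ Fintype.piFinset (fun _ : Fin s => range q),
        eAdd (((∑ i, c i * (z i : ℤ) ^ k : ℤ) : ℝ) * a / q)) / (q : ℂ) ^ s := fun a _ => by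
    simp only [factor, densityFactor]
    rw [prod_div_distrib, prod_const, card_univ, Fintype.card_fin]
    congr 1
    simp only [completeSum]
    rw [prod_univ_sum]
    refine sum_congr rfl fun z _ => ?_
    rw [prod_eAdd_eq]
    push_cast
    rw [sum_mul, sum_div]
    congr 1
    exact sum_congr rfl fun i _ => by ring
  rw [coefResidueSum, sum_congr rfl e, ← sum_div]
  congr 1
  rw [sum_comm, coefCount, card_filter, Nat.cast_sum, mul_sum]
  refine sum_congr rfl fun z _ => ?_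
  rw [sum_eAdd_grid hq]
  split_ifs <;> simp

theorem coefResidueSum_primePow {k s p : ℕ} (c : Fin s → ℤ) (hp : p.Prime) : ∀ L : ℕ,
    coefResidueSum k c (p ^ L) = ∑ l ∈ range (L + 1), term k c (p ^ l)
  | 0 => by
    simp [coefResidueSum, factor, densityFactor, completeSum, term_one]
  | L + 1 => by
    rw [sum_range_succ _ (L + 1), ← coefResidueSum_primePow c hp L, coefResidueSum,
      ← sum_filter_add_sum_filter_not (range (p ^ (L + 1))) (fun a => p ∣ a)]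
    congr 1
    · have hp0 : 0 < p := hp.pos
      refine sum_nbij' (fun a => a / p) (fun b => p * b) (fun a ha => ?_) (fun b hb => ?_)
        (fun a ha => Nat.mul_div_cancel' (mem_filter.1 ha).2)
        (fun b _ => Nat.mul_div_cancel_left b hp0) fun a ha => ?_
      · rw [mem_range, Nat.div_lt_iff_lt_mul hp0, ← pow_succ]
        exact mem_range.1 (mem_filter.1 ha).1
      · rw [mem_filter, mem_range, pow_succ']
        exact ⟨Nat.mul_lt_mul_of_pos_left (mem_range.1 hb) hp0, dvd_mul_right p b⟩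
      · obtain ⟨b, rfl⟩ := (mem_filter.1 ha).2
        rw [Nat.mul_div_cancel_left b hp0]
        simp only [factor, densityFactor]
        have hpc : (p : ℂ) ≠ 0 := Nat.cast_ne_zero.2 hp0.ne'
        refine prod_congr rfl fun i _ => ?_
        rw [pow_succ' p L, show c i * ((p * b : ℕ) : ℤ) = (p : ℤ) * (c i * b) by
          push_cast; ring, completeSum_mul_left hp0 (pow_pos hp0 L)]
        push_cast
        field_simp
    · rw [term, unitResidues]
      refine sum_congr (filter_congr fun a _ => ?_) fun a _ => rfl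
      rw [Nat.coprime_pow_left_iff L.succ_pos, ← hp.coprime_iff_not_dvd]

/-- **Enough solutions modulo `p ^ L`.** -/
theorem coefCount_ge {k s p : ℕ} (hp : p.Prime) (hk : 1 ≤ k) {c : Fin s → ℤ} {y : Fin s → ℕ}
    {i₀ : Fin s} {v : ℕ} {u : ℤ} (hcu : c i₀ = (p : ℤ) ^ v * u) (hu : ¬(p : ℤ) ∣ u)
    (hy : ¬p ∣ y i₀) {G : ℕ} (hG : G = v + (2 * padicValNat p k + 1))
    (hsum : (p : ℤ) ^ G ∣ ∑ i, c i * (y i : ℤ) ^ k) {L : ℕ} (hL : G ≤ L) :
    (p ^ (L - G)) ^ (s - 1) ≤ coefCount k c (p ^ L) := by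
  classical
  obtain ⟨γ, hγ⟩ : ∃ γ, γ = 2 * padicValNat p k + 1 := ⟨_, rfl⟩
  rw [← hγ] at hG
  have hq : p ^ L = p ^ G * p ^ (L - G) := by rw [← pow_add]; congr 1; omega
  obtain ⟨T, hT⟩ : ∃ T : Finset (Fin s → ℕ), T = Fintype.piFinset fun i : Fin s =>
      if i = i₀ then ({0} : Finset ℕ) else range (p ^ (L - G)) := ⟨_, rfl⟩
  obtain ⟨w, hw⟩ : ∃ w : (Fin s → ℕ) → Fin s → ℕ,
      w = fun t i => y i % p ^ G + p ^ G * t i := ⟨_, rfl⟩
  have hne : NeZero (p ^ L) := ⟨pow_ne_zero _ hp.ne_zero⟩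
  obtain ⟨u', hu'⟩ : ∃ u' : ℤ, (p : ℤ) ^ L ∣ u * u' - 1 := by
    have h1 := isUnit_primePow hp hu L
    refine ⟨((h1.unit⁻¹ : (ZMod (p ^ L))ˣ) : ZMod (p ^ L)).val, ?_⟩
    rw [← Int.natCast_pow, ← ZMod.intCast_zmod_eq_zero_iff_dvd]
    push_cast
    rw [ZMod.natCast_zmod_val, h1.mul_val_inv, sub_self]
  have hroot : ∀ t : Fin s → ℕ, ∃ z < p ^ L, (p : ℤ) ^ L ∣ c i₀ * (z : ℤ) ^ k -
      -∑ i ∈ univ.erase i₀, c i * (w t i : ℤ) ^ k := by
    intro t
    have hb : ((p ^ G : ℕ) : ℤ) ∣ c i₀ * (y i₀ : ℤ) ^ k -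
        -∑ i ∈ univ.erase i₀, c i * (w t i : ℤ) ^ k := by
      rw [← ZMod.intCast_zmod_eq_zero_iff_dvd]
      have h0 : ((∑ i, c i * (y i : ℤ) ^ k : ℤ) : ZMod (p ^ G)) = 0 := by
        rw [ZMod.intCast_zmod_eq_zero_iff_dvd]
        exact_mod_cast hsum
      have hwy : ∀ i, ((w t i : ℕ) : ZMod (p ^ G)) = (y i : ZMod (p ^ G)) := fun i => by
        rw [hw, ZMod.natCast_eq_natCast_iff', Nat.add_mul_mod_self_left, Nat.mod_mod]
      push_cast at h0 ⊢
      simp only [hwy]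
      rw [← add_sum_erase univ _ (mem_univ i₀)] at h0
      linear_combination h0
    obtain ⟨b, hbdef⟩ : ∃ b, b = -∑ i ∈ univ.erase i₀, c i * (w t i : ℤ) ^ k := ⟨_, rfl⟩
    rw [← hbdef] at hb ⊢
    rw [hcu, hG] at hb
    push_cast at hb
    obtain ⟨b', rfl⟩ : (p : ℤ) ^ v ∣ b := by
      have h1 : (p : ℤ) ^ v ∣ (p : ℤ) ^ v * u * (y i₀ : ℤ) ^ k :=
        (dvd_mul_right _ _).mul_right _
      simpa using dvd_sub h1 ((pow_dvd_pow _ (Nat.le_add_right v γ)).trans hb)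
    rw [pow_add, mul_assoc, ← mul_sub,
      mul_dvd_mul_iff_left (pow_ne_zero v (Int.natCast_ne_zero.2 hp.ne_zero))] at hb
    have hyb : (p : ℤ) ^ γ ∣ (y i₀ : ℤ) ^ k - u' * b' := by
      rw [show (y i₀ : ℤ) ^ k - u' * b' =
        u' * (u * (y i₀ : ℤ) ^ k - b') - (u * u' - 1) * (y i₀ : ℤ) ^ k by ring]
      exact dvd_sub (hb.mul_left _) (((pow_dvd_pow _ (by omega)).trans hu').mul_right _)
    obtain ⟨z, -, hz⟩ := exists_pow_congr hp hk (fun h => hy (Int.natCast_dvd_natCast.1 h))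
      (hγ ▸ hyb) L (by omega)
    refine ⟨((z : ZMod (p ^ L))).val, ZMod.val_lt _, ?_⟩
    rw [← Int.natCast_pow p L, ← ZMod.intCast_zmod_eq_zero_iff_dvd] at hz hu' ⊢
    push_cast [hcu] at hz hu' ⊢
    rw [ZMod.natCast_zmod_val]
    linear_combination (p : ZMod (p ^ L)) ^ v * u * hz + (p : ZMod (p ^ L)) ^ v * b' * hu'
  choose root hrlt hrdvd using hroot
  refine le_trans (le_of_eq ?_) (card_le_card_of_injOn
    (fun t i => if i = i₀ then root t else w t i) (s := T) (fun t ht => ?_) fun t ht x hx e => ?_)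
  · rw [hT, Fintype.card_piFinset, ← mul_prod_erase _ _ (mem_univ i₀), if_pos rfl, card_singleton,
      one_mul, prod_congr rfl fun l hl => by rw [if_neg (ne_of_mem_erase hl)], prod_const,
      card_erase_of_mem (mem_univ i₀), card_univ, Fintype.card_fin, card_range]
  · rw [mem_coe, hT, Fintype.mem_piFinset] at ht
    rw [mem_coe, mem_filter, Fintype.mem_piFinset]
    dsimp only
    refine ⟨fun i => ?_, ?_⟩
    · rw [mem_range]
      split_ifs with h
      · exact hrlt t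
      · have h1 := ht i
        rw [if_neg h, mem_range] at h1
        rw [hw, hq]
        calc y i % p ^ G + p ^ G * t i < p ^ G + p ^ G * t i :=
              Nat.add_lt_add_right (Nat.mod_lt _ (pow_pos hp.pos G)) _
          _ = p ^ G * (t i + 1) := by ring
          _ ≤ _ := Nat.mul_le_mul_left _ h1
    · rw [← add_sum_erase univ _ (mem_univ i₀), if_pos rfl,
        sum_congr rfl fun i hi => by rw [if_neg (ne_of_mem_erase hi)]]
      have := hrdvd t
      rw [sub_neg_eq_add] at this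
      exact_mod_cast this
  · simp only [mem_coe, hT, Fintype.mem_piFinset] at ht hx
    funext i
    by_cases h : i = i₀
    · have h1 := ht i
      have h2 := hx i
      rw [if_pos h, mem_singleton] at h1 h2
      rw [h1, h2]
    · have h1 := congrFun e i
      simp only [if_neg h, hw] at h1
      exact Nat.eq_of_mul_eq_mul_left (pow_pos hp.pos G) (by omega)

theorem factor_mul {k s q₁ q₂ : ℕ} (c : Fin s → ℤ) (hk : 1 ≤ k) (hco : q₁.Coprime q₂)
    (h₁ : 0 < q₁) (h₂ : 0 < q₂) (r₁ r₂ : ℕ) :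
    factor k (q₁ * q₂) c (crtResidue q₁ q₂ r₁ r₂) = factor k q₁ c r₁ * factor k q₂ c r₂ := by
  obtain ⟨r, hr⟩ : ∃ r, r = crtResidue q₁ q₂ r₁ r₂ := ⟨_, rfl⟩
  have u₁ : IsUnit (((q₂ : ℕ) : ℤ) : ZMod q₁) := by
    rw [Int.cast_natCast]; exact (ZMod.isUnit_iff_coprime q₂ q₁).2 hco.symm
  have u₂ : IsUnit (((q₁ : ℕ) : ℤ) : ZMod q₂) := by
    rw [Int.cast_natCast]; exact (ZMod.isUnit_iff_coprime q₁ q₂).2 hco
  have e₁ : ∀ a : ℤ, completeSum k q₁ (a * r * (q₂ : ℤ) ^ (k - 1)) =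
      completeSum k q₁ (a * r₁) := fun a => by
    rw [← completeSum_mul_pow (k := k) h₁ (a * r₁) u₁]
    refine completeSum_congr h₁ ?_
    push_cast
    obtain ⟨j, rfl⟩ : ∃ j, k = j + 1 := ⟨k - 1, by omega⟩
    rw [hr, crtResidue_cast_left, Nat.add_sub_cancel]
    ring
  have e₂ : ∀ a : ℤ, completeSum k q₂ (a * r * (q₁ : ℤ) ^ (k - 1)) =
      completeSum k q₂ (a * r₂) := fun a => by
    rw [← completeSum_mul_pow (k := k) h₂ (a * r₂) u₂]
    refine completeSum_congr h₂ ?_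
    push_cast
    obtain ⟨j, rfl⟩ : ∃ j, k = j + 1 := ⟨k - 1, by omega⟩
    rw [hr, crtResidue_cast_right, Nat.add_sub_cancel]
    ring
  rw [← hr, factor, factor, factor, ← prod_mul_distrib]
  refine prod_congr rfl fun i _ => ?_
  rw [densityFactor, densityFactor, densityFactor, completeSum_mul hk hco h₁.ne' h₂.ne', e₁, e₂,
    Nat.cast_mul, mul_div_mul_comm]

/-- **Multiplicativity.** -/
theorem term_mul {k s m n : ℕ} (c : Fin s → ℤ) (hk : 1 ≤ k) (h : m.Coprime n) :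
    term k c (m * n) = term k c m * term k c n := by
  rcases Nat.eq_zero_or_pos m with rfl | hm
  · simp [term_zero]
  rcases Nat.eq_zero_or_pos n with rfl | hn
  · simp [term_zero]
  simp only [term]
  rw [sum_mul_sum, ← sum_product']
  have hinj : Set.InjOn (fun z : ℕ × ℕ => crtResidue m n z.1 z.2)
      (unitResidues m ×ˢ unitResidues n : Finset (ℕ × ℕ)) := by
    intro z hz w hw e
    simp only [mem_coe, mem_product, unitResidues, mem_filter, mem_range] at hz hw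
    have a1 := congrArg (fun r : ℕ => (r : ZMod m)) e
    have a2 := congrArg (fun r : ℕ => (r : ZMod n)) e
    simp only [crtResidue_cast_left, crtResidue_cast_right] at a1 a2
    have b1 := ((ZMod.isUnit_iff_coprime n m).2 h.symm).mul_right_cancel a1
    have b2 := ((ZMod.isUnit_iff_coprime m n).2 h).mul_right_cancel a2
    rw [ZMod.natCast_eq_natCast_iff', Nat.mod_eq_of_lt hz.1.1, Nat.mod_eq_of_lt hw.1.1] at b1
    rw [ZMod.natCast_eq_natCast_iff', Nat.mod_eq_of_lt hz.2.1, Nat.mod_eq_of_lt hw.2.1] at b2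
    exact Prod.ext b1 b2
  have himg : (unitResidues m ×ˢ unitResidues n).image
      (fun z : ℕ × ℕ => crtResidue m n z.1 z.2) = unitResidues (m * n) := by
    refine eq_of_subset_of_card_le (fun r hr => ?_) ?_
    · obtain ⟨z, hz, rfl⟩ := mem_image.1 hr
      exact crtResidue_mem h (mem_product.1 hz).1 (mem_product.1 hz).2
    · rw [card_image_of_injOn hinj, card_product, card_unitResidues, card_unitResidues,
        card_unitResidues, Nat.totient_mul h]
  rw [← himg, sum_image hinj]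
  exact sum_congr rfl fun z _ => factor_mul c hk h hm hn z.1 z.2

/-- The local factor. -/
def coefDensity (k : ℕ) {s : ℕ} (c : Fin s → ℤ) (p : ℕ) : ℂ := ∑' l, term k c (p ^ l)

theorem coefDensity_tendsto {k s : ℕ} (hk : 2 ≤ k) (hs : 3 * k ≤ s) {c : Fin s → ℤ}
    (hc : ∀ i, c i ≠ 0) {p : ℕ} (hp : p.Prime) :
    Tendsto (fun n => (((p ^ n : ℕ) : ℂ) * coefCount k c (p ^ n) / ((p ^ n : ℕ) : ℂ) ^ s)) atTop
      (𝓝 (coefDensity k c p)) := by
  obtain ⟨C, -, h⟩ := exists_term_tail hk hs hc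
  have hsum : Summable fun l => term k c (p ^ l) :=
    (h 0).1.norm.of_norm.comp_injective (Nat.pow_right_injective hp.two_le)
  refine (hsum.hasSum.tendsto_sum_nat.comp (tendsto_add_atTop_nat 1)).congr fun n => ?_
  rw [Function.comp_apply, ← coefResidueSum_primePow c hp n,
    coefResidueSum_eq c (pow_pos hp.pos n)]

theorem coefDensity_real {k s : ℕ} (hk : 2 ≤ k) (hs : 3 * k ≤ s) {c : Fin s → ℤ}
    (hc : ∀ i, c i ≠ 0) {p : ℕ} (hp : p.Prime) :
    coefDensity k c p = ((coefDensity k c p).re : ℂ) := by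
  refine Complex.ext rfl ?_
  rw [Complex.ofReal_im]
  refine tendsto_nhds_unique ((Complex.continuous_im.tendsto _).comp
    (coefDensity_tendsto hk hs hc hp)) (tendsto_const_nhds.congr fun n => ?_)
  rw [Function.comp_apply, show (((p ^ n : ℕ) : ℂ) * coefCount k c (p ^ n) /
      ((p ^ n : ℕ) : ℂ) ^ s) =
    (((p ^ n : ℕ) : ℝ) * coefCount k c (p ^ n) / ((p ^ n : ℕ) : ℝ) ^ s : ℝ) by push_cast; rfl,
    Complex.ofReal_im]

theorem coefDensity_pos {k s : ℕ} (hk : 2 ≤ k) (hs : 3 * k ≤ s) {c : Fin s → ℤ}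
    (hc : ∀ i, c i ≠ 0) {p : ℕ} (hp : p.Prime) (hloc : LocalPattern k c p) :
    0 < (coefDensity k c p).re := by
  obtain ⟨y, i₀, v, u, hcu, hu, hy, hsum⟩ := hloc
  obtain ⟨G, hG⟩ : ∃ G, G = v + (2 * padicValNat p k + 1) := ⟨_, rfl⟩
  rw [← hG] at hsum
  have := hp.pos
  refine lt_of_lt_of_le (show (0 : ℝ) < 1 / ((p ^ G : ℕ) : ℝ) ^ (s - 1) by positivity)
    (ge_of_tendsto ((Complex.continuous_re.tendsto _).comp (coefDensity_tendsto hk hs hc hp))
      (eventually_atTop.2 ⟨G, fun L hL => ?_⟩))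
  have hC := coefCount_ge hp (by omega) hcu hu hy hG hsum hL
  rw [Function.comp_apply, show (((p ^ L : ℕ) : ℂ) * coefCount k c (p ^ L) /
      ((p ^ L : ℕ) : ℂ) ^ s) =
    (((p ^ L : ℕ) : ℝ) * coefCount k c (p ^ L) / ((p ^ L : ℕ) : ℝ) ^ s : ℝ) by push_cast; rfl,
    Complex.ofReal_re]
  obtain ⟨n, rfl⟩ : ∃ n, s = n + 1 := ⟨s - 1, by omega⟩
  rw [Nat.add_sub_cancel] at hC ⊢
  obtain ⟨q, hq⟩ : ∃ q, q = p ^ L := ⟨_, rfl⟩
  rw [← hq] at hC ⊢
  have hq' : (0 : ℝ) < q := Nat.cast_pos.2 (hq ▸ pow_pos hp.pos L)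
  rw [pow_succ' (q : ℝ) n, mul_div_mul_left _ _ hq'.ne', div_le_div_iff₀
    (pow_pos (Nat.cast_pos.2 (pow_pos hp.pos G)) n) (pow_pos hq' n), one_mul]
  have hpow : q ^ n = (p ^ (L - G)) ^ n * (p ^ G) ^ n := by
    rw [← mul_pow, ← pow_add, hq, Nat.sub_add_cancel hL]
  rw [← Nat.cast_pow, ← Nat.cast_pow, ← Nat.cast_mul, Nat.cast_le, hpow]
  exact Nat.mul_le_mul_right _ hC

theorem exists_coefDensity_near_one {k s : ℕ} (hk : 2 ≤ k) (hs : 3 * k ≤ s) {c : Fin s → ℤ}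
    (hc : ∀ i, c i ≠ 0) : ∃ C : ℝ, 0 < C ∧
    ∀ p : ℕ, p.Prime → 1 - C * (p : ℝ) ^ (-(7 / 5) : ℝ) ≤ (coefDensity k c p).re := by
  obtain ⟨C, hC, h⟩ := exists_term_le hk hs hc
  obtain ⟨D, -, htail⟩ := exists_term_tail hk hs hc
  refine ⟨2 * C, by positivity, fun p hp => ?_⟩
  have hp2 : (2 : ℝ) ≤ p := by exact_mod_cast hp.two_le
  obtain ⟨x, hx⟩ : ∃ x, x = (p : ℝ) ^ (-(7 / 5) : ℝ) := ⟨_, rfl⟩
  have hx0 : 0 ≤ x := hx ▸ by positivity
  have hx2 : x ≤ 1 / 2 := by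
    rw [hx, Real.rpow_neg (by linarith), ← one_div]
    exact one_div_le_one_div_of_le two_pos
      (hp2.trans (Real.self_le_rpow_of_one_le (by linarith) (by norm_num)))
  rw [← hx]
  have hsum : Summable fun l => term k c (p ^ l) :=
    (htail 0).1.norm.of_norm.comp_injective (Nat.pow_right_injective hp.two_le)
  have hg : HasSum (fun l : ℕ => C * x * x ^ l) (C * x * (1 - x)⁻¹) :=
    (hasSum_geometric_of_lt_one hx0 (by linarith)).mul_left _
  have htl : ‖∑' l, term k c (p ^ (l + 1))‖ ≤ C * x * (1 - x)⁻¹ := by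
    refine tsum_of_norm_bounded hg fun l => (h (p ^ (l + 1))).2.trans (le_of_eq ?_)
    rw [hx, mul_assoc, ← pow_succ', ← Real.rpow_natCast (_ ^ _) (l + 1),
      ← Real.rpow_mul (by linarith), mul_comm (-(7 / 5) : ℝ), Real.rpow_mul (by linarith),
      Real.rpow_natCast, Nat.cast_pow]
  have e : coefDensity k c p = 1 + ∑' l, term k c (p ^ (l + 1)) := by
    rw [coefDensity, hsum.tsum_eq_zero_add, pow_zero, term_one]
  rw [e, Complex.add_re, Complex.one_re]
  have h1 := (abs_le.1 ((Complex.abs_re_le_norm _).trans htl)).1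
  have h2 : C * x * (1 - x)⁻¹ ≤ C * x * 2 := by
    refine mul_le_mul_of_nonneg_left ?_ (by positivity)
    rw [inv_le_comm₀ (by linarith) two_pos]
    linarith
  linarith

/-- **The singular series is positive.** -/
theorem series_pos {k s : ℕ} (hk : 2 ≤ k) (hs : 3 * k ≤ s) {c : Fin s → ℤ} (hc : ∀ i, c i ≠ 0)
    (hloc : ∀ p, p.Prime → LocalPattern k c p) : 0 < (∑' q, term k c q).re := by
  obtain ⟨C, hC, hnear⟩ := exists_coefDensity_near_one hk hs hc
  obtain ⟨D, -, htail⟩ := exists_term_tail hk hs hc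
  obtain ⟨a, ha⟩ : ∃ a : ℕ → ℝ, a = fun p : ℕ => C * (p : ℝ) ^ (-(7 / 5) : ℝ) := ⟨_, rfl⟩
  have hasum : Summable a := ha ▸ (Real.summable_nat_rpow.2 (by norm_num)).mul_left C
  have ha0 : ∀ p, 0 ≤ a p := fun p => by rw [ha]; positivity
  obtain ⟨p₀, hp₀⟩ := ((tendsto_sum_nat_add a).eventually
    (eventually_le_nhds (show (0 : ℝ) < 1 / 2 by norm_num))).exists
  obtain ⟨d, hd⟩ : ∃ d : ℕ → ℝ, d = fun p => (coefDensity k c p).re := ⟨_, rfl⟩
  have hd0 : ∀ p, p.Prime → 0 < d p := fun p hp => hd ▸ coefDensity_pos hk hs hc hp (hloc p hp)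
  have hm : 0 < (∏ p ∈ Nat.primesBelow p₀, d p) * (1 / 2) :=
    mul_pos (prod_pos fun p hp => hd0 p (Nat.mem_primesBelow.1 hp).2) (by norm_num)
  refine lt_of_lt_of_le hm ?_
  have hE := EulerProduct.eulerProduct (f := term k c) (term_one k c)
    (fun h => term_mul c (by omega) h) (htail 0).1.norm (term_zero k c)
  refine ge_of_tendsto ((Complex.continuous_re.tendsto _).comp hE)
    (eventually_atTop.2 ⟨p₀, fun n hn => ?_⟩)
  obtain ⟨S, hS⟩ : ∃ S, S = Nat.primesBelow n := ⟨_, rfl⟩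
  have hreal : ∏ p ∈ S, ∑' e, term k c (p ^ e) = ((∏ p ∈ S, d p : ℝ) : ℂ) := by
    rw [Complex.ofReal_prod]
    refine prod_congr rfl fun p hp => ?_
    rw [hd]
    exact coefDensity_real hk hs hc (Nat.mem_primesBelow.1 (hS ▸ hp)).2
  simp only [Function.comp, ← hS, hreal, Complex.ofReal_re]
  have hlow : S.filter (fun p => p < p₀) = Nat.primesBelow p₀ := by
    ext p
    simp only [hS, mem_filter, Nat.mem_primesBelow]
    exact ⟨fun h => ⟨h.2, h.1.2⟩, fun h => ⟨⟨h.1.trans_le hn, h.2⟩, h.1⟩⟩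
  rw [← prod_filter_mul_prod_filter_not S (fun p => p < p₀), hlow]
  refine mul_le_mul_of_nonneg_left ?_
    (prod_nonneg fun p hp => (hd0 p (Nat.mem_primesBelow.1 hp).2).le)
  have hsum : ∑ p ∈ S.filter (fun p => ¬p < p₀), a p ≤ 1 / 2 := by
    refine le_trans ?_ hp₀
    refine (sum_le_sum_of_subset_of_nonneg (t := Ico p₀ n) (fun p hp => ?_)
      fun p _ _ => ha0 p).trans ?_
    · rw [hS, mem_filter, Nat.mem_primesBelow] at hp
      exact mem_Ico.2 ⟨not_lt.1 hp.2, hp.1.1⟩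
    · rw [sum_Ico_eq_sum_range]
      simp only [add_comm p₀]
      exact (((summable_nat_add_iff p₀).2 hasum)).sum_le_tsum _ fun i _ => ha0 _
  have hle1 : ∀ p ∈ S.filter (fun p => ¬p < p₀), a p ≤ 1 := fun p hp =>
    ((single_le_sum (fun q _ => ha0 q) hp).trans hsum).trans (by norm_num)
  refine le_trans (by linarith) ((one_sub_sum_le_prod _ a (fun p _ => ha0 p) hle1).trans
    (prod_le_prod (fun p hp => sub_nonneg.2 (hle1 p hp)) fun p hp => ?_))
  rw [ha, hd]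
  exact hnear p (Nat.mem_primesBelow.1 (hS ▸ (mem_filter.1 hp).1)).2

end FA.BirchForms
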